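import Fermat.Agent.S05.NoTorsion

/-!
# S13 library, piece [NT2]: the kernel of reduction has no `n`-torsion for `n` a unit
(any residue characteristic)

`F` a field, `A` a valuation subring containing `b₂, b₄, b₆, b₈` (no hypothesis on `2`).
`E₁ = {O} ∪ {P : x(P) ∉ A}` (`InKerRed` of `S05/NoTorsion.lean`).

* `nt2_add_sub` : `E₁` is closed under `P ± Q`.
* `nt2_eq_zero_of_nsmul_eq_zero` : if `n` is a unit of `A`, `T ∈ E₁` and `n • T = 0` then `T = 0`.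

The Kummer-line formulas are proved here in a characteristic-free way (no division by `2`).
-/

set_option autoImplicit false
set_option linter.unusedSectionVars false

namespace Fermat.Agent.S13

open WeierstrassCurve
open Fermat.Agent.S05 (xOf xOf_some xOf_neg InKerRed sumNum prodNum psi2Sq dupNum)

section Kummer

variable {F : Type*} [Field F] (W : WeierstrassCurve F)

theorem nt2_addX_mul_sq {x₁ x₂ y₁ y' ℓ : F} (hℓ : ℓ * (x₁ - x₂) = y₁ - y') :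
    W.toAffine.addX x₁ x₂ ℓ * (x₁ - x₂) ^ 2 =
      (y₁ - y') ^ 2 + W.a₁ * (x₁ - x₂) * (y₁ - y') - (W.a₂ + x₁ + x₂) * (x₁ - x₂) ^ 2 := by
  rw [← hℓ]
  simp only [Affine.addX]
  ring

theorem nt2_sum_aux {x₁ y₁ x₂ y₂ ℓ ℓ' : F}
    (h₁ : W.toAffine.Equation x₁ y₁) (h₂ : W.toAffine.Equation x₂ y₂)
    (hℓ : ℓ * (x₁ - x₂) = y₁ - y₂)
    (hℓ' : ℓ' * (x₁ - x₂) = y₁ - W.toAffine.negY x₂ y₂) :
    (W.toAffine.addX x₁ x₂ ℓ + W.toAffine.addX x₁ x₂ ℓ') * (x₁ - x₂) ^ 2 =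
      sumNum W x₁ x₂ := by
  rw [add_mul, nt2_addX_mul_sq W hℓ, nt2_addX_mul_sq W hℓ']
  rw [Affine.equation_iff] at h₁ h₂
  simp only [sumNum, b₂, b₄, b₆, Affine.negY]
  linear_combination 2 * h₁ + 2 * h₂

theorem nt2_prod_aux {x₁ y₁ x₂ y₂ ℓ ℓ' : F}
    (h₁ : W.toAffine.Equation x₁ y₁) (h₂ : W.toAffine.Equation x₂ y₂)
    (hℓ : ℓ * (x₁ - x₂) = y₁ - y₂)
    (hℓ' : ℓ' * (x₁ - x₂) = y₁ - W.toAffine.negY x₂ y₂) :
    W.toAffine.addX x₁ x₂ ℓ * W.toAffine.addX x₁ x₂ ℓ' * (x₁ - x₂) ^ 4 =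
      prodNum W x₁ x₂ * (x₁ - x₂) ^ 2 := by
  have e : W.toAffine.addX x₁ x₂ ℓ * W.toAffine.addX x₁ x₂ ℓ' * (x₁ - x₂) ^ 4 =
      (W.toAffine.addX x₁ x₂ ℓ * (x₁ - x₂) ^ 2) * (W.toAffine.addX x₁ x₂ ℓ' * (x₁ - x₂) ^ 2) := by
    ring
  rw [e, nt2_addX_mul_sq W hℓ, nt2_addX_mul_sq W hℓ']
  rw [Affine.equation_iff] at h₁ h₂
  simp only [prodNum, b₄, b₆, b₈, Affine.negY]
  linear_combination
    (y₁ ^ 2 + y₁ * (W.a₁ * x₁ + W.a₃) - y₂ ^ 2 - y₂ * (W.a₁ * x₂ + W.a₃)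
      + (x₁ ^ 3 + W.a₂ * x₁ ^ 2 + W.a₄ * x₁ + W.a₆)
      - (x₂ ^ 3 + W.a₂ * x₂ ^ 2 + W.a₄ * x₂ + W.a₆)
      + W.a₁ * (x₁ - x₂) * (W.a₁ * x₂ + W.a₃)
      - 2 * (W.a₂ + x₁ + x₂) * (x₁ - x₂) ^ 2) * h₁ +
    (-(y₁ ^ 2 + y₁ * (W.a₁ * x₁ + W.a₃) - y₂ ^ 2 - y₂ * (W.a₁ * x₂ + W.a₃)
      + (x₁ ^ 3 + W.a₂ * x₁ ^ 2 + W.a₄ * x₁ + W.a₆)
      - (x₂ ^ 3 + W.a₂ * x₂ ^ 2 + W.a₄ * x₂ + W.a₆))
      - W.a₁ * (x₁ - x₂) * (W.a₁ * x₁ + W.a₃)
      - 2 * (W.a₂ + x₁ + x₂) * (x₁ - x₂) ^ 2) * h₂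

end Kummer

section Points

variable {F : Type*} [Field F] [DecidableEq F] (W : WeierstrassCurve F)

theorem nt2_exists_some {P : W.toAffine.Point} (hP : P ≠ 0) :
    ∃ (x y : F) (h : W.toAffine.Nonsingular x y), P = Affine.Point.some x y h := by
  rcases P with _ | ⟨x, y, h⟩
  · exact absurd rfl hP
  · exact ⟨x, y, h, rfl⟩

/-- if two nonzero points have the same `x`-coordinate they are equal or opposite -/
theorem nt2_eq_or_eq_neg {P Q : W.toAffine.Point} (hP : P ≠ 0) (hQ : Q ≠ 0)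
    (hx : xOf P = xOf Q) : P = Q ∨ P = -Q := by
  obtain ⟨x₁, y₁, h₁, rfl⟩ := nt2_exists_some W hP
  obtain ⟨x₂, y₂, h₂, rfl⟩ := nt2_exists_some W hQ
  simp only [xOf_some] at hx
  exact Affine.Point.X_eq_iff.mp hx

/-- the Kummer formulas for `R + Q` and `R - Q` -/
theorem nt2_kummer {R Q : W.toAffine.Point} (hR : R ≠ 0) (hQ : Q ≠ 0)
    (hx : xOf R ≠ xOf Q) :
    R + Q ≠ 0 ∧ R - Q ≠ 0 ∧
      (xOf (R + Q) + xOf (R - Q)) * (xOf R - xOf Q) ^ 2 =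
        sumNum W (xOf R) (xOf Q) ∧
      xOf (R + Q) * xOf (R - Q) * (xOf R - xOf Q) ^ 2 =
        prodNum W (xOf R) (xOf Q) := by
  obtain ⟨x₁, y₁, h₁, rfl⟩ := nt2_exists_some W hR
  obtain ⟨x₂, y₂, h₂, rfl⟩ := nt2_exists_some W hQ
  simp only [xOf_some] at hx ⊢
  have hu : x₁ - x₂ ≠ 0 := sub_ne_zero.mpr hx
  have hadd := Affine.Point.add_of_X_ne (h₁ := h₁) (h₂ := h₂) hx
  have hsub : Affine.Point.some x₁ y₁ h₁ - Affine.Point.some x₂ y₂ h₂ =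
      Affine.Point.some _ _ (Affine.nonsingular_add h₁
        ((Affine.nonsingular_neg (W' := W.toAffine) x₂ y₂).mpr h₂) fun hxy => hx hxy.left) := by
    rw [sub_eq_add_neg, Affine.Point.neg_some]
    exact Affine.Point.add_of_X_ne hx
  rw [hadd, hsub]
  simp only [xOf_some]
  have hℓ : W.toAffine.slope x₁ x₂ y₁ y₂ * (x₁ - x₂) = y₁ - y₂ := by
    rw [Affine.slope_of_X_ne hx, div_mul_cancel₀ _ hu]
  have hℓ' : W.toAffine.slope x₁ x₂ y₁ (W.toAffine.negY x₂ y₂) * (x₁ - x₂) =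
      y₁ - W.toAffine.negY x₂ y₂ := by
    rw [Affine.slope_of_X_ne hx, div_mul_cancel₀ _ hu]
  refine ⟨Affine.Point.some_ne_zero _, Affine.Point.some_ne_zero _,
    nt2_sum_aux W h₁.1 h₂.1 hℓ hℓ', ?_⟩
  have h4 := nt2_prod_aux W h₁.1 h₂.1 hℓ hℓ'
  have hu2 : (x₁ - x₂) ^ 2 ≠ 0 := pow_ne_zero 2 hu
  apply mul_right_cancel₀ hu2
  rw [← h4]
  ring

theorem nt2_dblDen_eq_sq {x y : F} (h : W.toAffine.Equation x y) :
    psi2Sq W x = (2 * y + W.a₁ * x + W.a₃) ^ 2 := by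
  rw [Affine.equation_iff] at h
  simp only [psi2Sq, b₂, b₄, b₆]
  linear_combination (-4 : F) * h

/-- the duplication formula -/
theorem nt2_double {P : W.toAffine.Point} (hP : P ≠ 0) (h2 : (2 : ℕ) • P ≠ 0) :
    xOf ((2 : ℕ) • P) * psi2Sq W (xOf P) = dupNum W (xOf P) := by
  obtain ⟨x, y, h, rfl⟩ := nt2_exists_some W hP
  simp only [xOf_some]
  have hy : y ≠ W.toAffine.negY x y := by
    intro hy
    apply h2
    rw [two_nsmul]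
    exact Affine.Point.add_self_of_Y_eq hy
  rw [two_nsmul, Affine.Point.add_self_of_Y_ne hy]
  simp only [xOf_some]
  have hu : y - W.toAffine.negY x y ≠ 0 := sub_ne_zero.mpr hy
  set ℓ := W.toAffine.slope x x y y with hℓdef
  have hℓ : ℓ * (2 * y + W.a₁ * x + W.a₃) = 3 * x ^ 2 + 2 * W.a₂ * x + W.a₄ - W.a₁ * y := by
    rw [hℓdef, Affine.slope_of_Y_ne rfl hy]
    have : y - W.toAffine.negY x y = 2 * y + W.a₁ * x + W.a₃ := by
      simp only [Affine.negY]; ring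
    rw [this] at hu ⊢
    rw [div_mul_cancel₀ _ hu]
  rw [nt2_dblDen_eq_sq W h.1]
  have he := h.1
  rw [Affine.equation_iff] at he
  simp only [Affine.addX, dupNum, b₄, b₆, b₈]
  linear_combination (-(W.a₁ ^ 2 + 4 * W.a₂ + 8 * x)) * he +
    (ℓ * (2 * y + W.a₁ * x + W.a₃) + (3 * x ^ 2 + 2 * W.a₂ * x + W.a₄ - W.a₁ * y) +
      W.a₁ * (2 * y + W.a₁ * x + W.a₃)) * hℓ

end Points

section Valued

variable {K : Type*} [Field K] (A : ValuationSubring K)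

/-- `1 - m` is a unit of `A` when `m` is a nonunit -/
theorem nt2_inv_one_sub_mem {m : K} (hm : m ∈ A.nonunits) :
    ∃ d : K, d ∈ A ∧ d * (1 - m) = 1 := by
  have hv : A.valuation m < 1 := A.mem_nonunits_iff.mp hm
  have h1 : A.valuation (1 - m) = 1 := Valuation.map_one_sub_of_lt _ hv
  have hne : (1 - m) ≠ 0 := by
    intro h0
    rw [h0, map_zero] at h1
    exact zero_ne_one h1
  refine ⟨(1 - m)⁻¹, ?_, inv_mul_cancel₀ hne⟩
  rw [← A.valuation_le_one_iff, map_inv₀, h1, inv_one]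

theorem nt2_mul_mem_nonunits {a m : K} (ha : a ∈ A) (hm : m ∈ A.nonunits) :
    a * m ∈ A.nonunits := by
  rw [A.mem_nonunits_iff] at hm ⊢
  rw [map_mul]
  have h1 : A.valuation a ≤ 1 := (A.valuation_le_one_iff a).mpr ha
  calc A.valuation a * A.valuation m ≤ 1 * A.valuation m := by gcongr
    _ = A.valuation m := one_mul _
    _ < 1 := hm

theorem nt2_one_not_mem_nonunits : (1 : K) ∉ A.nonunits := by
  rw [A.mem_nonunits_iff, map_one]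
  exact lt_irrefl _

/-- estimate for the duplication formula: `1/x(2P) = 4X + cX²` -/
theorem nt2_dbl_estimate {b₂ b₄ b₆ b₈ X x₂ : K}
    (hb₂ : b₂ ∈ A) (hb₄ : b₄ ∈ A) (hb₆ : b₆ ∈ A) (hb₈ : b₈ ∈ A)
    (hXA : X ∈ A) (hXnu : X ∈ A.nonunits) (hX0 : X ≠ 0)
    (hdbl : x₂ * (4 * X⁻¹ ^ 3 + b₂ * X⁻¹ ^ 2 + 2 * b₄ * X⁻¹ + b₆) =
      X⁻¹ ^ 4 - b₄ * X⁻¹ ^ 2 - 2 * b₆ * X⁻¹ - b₈) :
    x₂ ≠ 0 ∧ ∃ c ∈ A, x₂⁻¹ = 4 * X + c * X ^ 2 := by
  have h2A : (2 : K) ∈ A := by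
    have : (2 : K) = 1 + 1 := by norm_num
    rw [this]; exact A.add_mem _ _ A.one_mem A.one_mem
  have hmA : b₄ * X + 2 * b₆ * X ^ 2 + b₈ * X ^ 3 ∈ A := by
    refine A.add_mem _ _ (A.add_mem _ _ (A.mul_mem _ _ hb₄ hXA) ?_) ?_
    · exact A.mul_mem _ _ (A.mul_mem _ _ h2A hb₆) (pow_mem hXA 2)
    · exact A.mul_mem _ _ hb₈ (pow_mem hXA 3)
  have hm : (b₄ * X + 2 * b₆ * X ^ 2 + b₈ * X ^ 3) * X ∈ A.nonunits :=
    nt2_mul_mem_nonunits A hmA hXnu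
  obtain ⟨d, hdA, hd⟩ := nt2_inv_one_sub_mem A hm
  have key : x₂ * X * (4 + b₂ * X + 2 * b₄ * X ^ 2 + b₆ * X ^ 3) =
      1 - (b₄ * X + 2 * b₆ * X ^ 2 + b₈ * X ^ 3) * X := by
    have e1 : x₂ * X * (4 + b₂ * X + 2 * b₄ * X ^ 2 + b₆ * X ^ 3) =
        x₂ * (4 * X⁻¹ ^ 3 + b₂ * X⁻¹ ^ 2 + 2 * b₄ * X⁻¹ + b₆) * X ^ 4 := by
      field_simp
    have e2 : 1 - (b₄ * X + 2 * b₆ * X ^ 2 + b₈ * X ^ 3) * X =
        (X⁻¹ ^ 4 - b₄ * X⁻¹ ^ 2 - 2 * b₆ * X⁻¹ - b₈) * X ^ 4 := by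
      field_simp
      ring
    rw [e1, e2, hdbl]
  have hD0 : (1 - (b₄ * X + 2 * b₆ * X ^ 2 + b₈ * X ^ 3) * X) ≠ 0 := by
    intro h0
    rw [h0, mul_zero] at hd
    exact zero_ne_one hd
  have hx₂ : x₂ ≠ 0 := by
    rintro rfl
    rw [zero_mul, zero_mul] at key
    exact hD0 key.symm
  refine ⟨hx₂, (b₂ + 6 * b₄ * X + 9 * b₆ * X ^ 2 + 4 * b₈ * X ^ 3) * d, ?_, ?_⟩
  · refine A.mul_mem _ _ ?_ hdA
    have h3A : (3 : K) ∈ A := by
      have : (3 : K) = 2 + 1 := by norm_num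
      rw [this]; exact A.add_mem _ _ h2A A.one_mem
    have h6A : (6 : K) ∈ A := by
      have : (6 : K) = 2 * 3 := by norm_num
      rw [this]; exact A.mul_mem _ _ h2A h3A
    have h9A : (9 : K) ∈ A := by
      have : (9 : K) = 3 * 3 := by norm_num
      rw [this]; exact A.mul_mem _ _ h3A h3A
    have h4A : (4 : K) ∈ A := by
      have : (4 : K) = 2 * 2 := by norm_num
      rw [this]; exact A.mul_mem _ _ h2A h2A
    refine A.add_mem _ _ (A.add_mem _ _ (A.add_mem _ _ hb₂ ?_) ?_) ?_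
    · exact A.mul_mem _ _ (A.mul_mem _ _ h6A hb₄) hXA
    · exact A.mul_mem _ _ (A.mul_mem _ _ h9A hb₆) (pow_mem hXA 2)
    · exact A.mul_mem _ _ (A.mul_mem _ _ h4A hb₈) (pow_mem hXA 3)
  · -- x₂⁻¹ = X * N₂ * d
    have h1 : x₂⁻¹ = X * (4 + b₂ * X + 2 * b₄ * X ^ 2 + b₆ * X ^ 3) * d := by
      rw [inv_eq_iff_eq_inv, ← one_div, eq_div_iff (by
        intro h0
        have : x₂ * X * (4 + b₂ * X + 2 * b₄ * X ^ 2 + b₆ * X ^ 3) * d = 0 := by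
          rw [mul_assoc x₂, mul_assoc x₂, h0, mul_zero]
        rw [key, mul_comm, hd] at this
        exact one_ne_zero this)]
      calc x₂ * (X * (4 + b₂ * X + 2 * b₄ * X ^ 2 + b₆ * X ^ 3) * d)
          = d * (x₂ * X * (4 + b₂ * X + 2 * b₄ * X ^ 2 + b₆ * X ^ 3)) := by ring
        _ = 1 := by rw [key, hd]
    rw [h1]
    linear_combination (4 * X) * hd

/-- the inductive step: from `1/x(kP)` and `1/x((k-1)P)` to `1/x((k+1)P)` -/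
theorem nt2_step {b₂ b₄ b₆ b₈ : K} (hb₂ : b₂ ∈ A) (hb₄ : b₄ ∈ A) (hb₆ : b₆ ∈ A) (hb₈ : b₈ ∈ A)
    {X X₁ X₄ x₃ : K} (hXA : X ∈ A) (hXnu : X ∈ A.nonunits) (hX0 : X ≠ 0)
    (hX₁0 : X₁ ≠ 0) (hX₄0 : X₄ ≠ 0) {n₁ n₄ : K} (hn₁ : n₁ ∈ A)
    (h1 : ∃ c ∈ A, X₁ = n₁ * X + c * X ^ 2)
    (h4 : ∃ c ∈ A, X₄ = n₄ * X + c * X ^ 2)
    (hsum : (x₃ + X₄⁻¹) * (X₁⁻¹ - X⁻¹) ^ 2 =
      2 * X₁⁻¹ * X⁻¹ * (X₁⁻¹ + X⁻¹) + b₂ * X₁⁻¹ * X⁻¹ + b₄ * (X₁⁻¹ + X⁻¹) + b₆)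
    (hprod : x₃ * X₄⁻¹ * (X₁⁻¹ - X⁻¹) ^ 2 =
      (X₁⁻¹ * X⁻¹) ^ 2 - b₄ * X₁⁻¹ * X⁻¹ - b₆ * (X₁⁻¹ + X⁻¹) - b₈) :
    x₃ ≠ 0 ∧ ∃ c ∈ A, x₃⁻¹ = (2 * n₁ + 2 - n₄) * X + c * X ^ 2 := by
  obtain ⟨c₁, hc₁, e₁⟩ := h1
  obtain ⟨c₄, hc₄, e₄⟩ := h4
  have h2A : (2 : K) ∈ A := by
    have : (2 : K) = 1 + 1 := by norm_num
    rw [this]; exact A.add_mem _ _ A.one_mem A.one_mem
  -- `X₁ = X * t`
  obtain ⟨t, ht⟩ : ∃ t, t = n₁ + c₁ * X := ⟨_, rfl⟩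
  have htA : t ∈ A := by rw [ht]; exact A.add_mem _ _ hn₁ (A.mul_mem _ _ hc₁ hXA)
  have hX₁ : X₁ = X * t := by rw [e₁, ht]; ring
  have ht1A : t + 1 ∈ A := A.add_mem _ _ htA A.one_mem
  obtain ⟨g, hg⟩ : ∃ g, g = b₄ * t + b₆ * t * X * (t + 1) + b₈ * t ^ 2 * X ^ 2 := ⟨_, rfl⟩
  have hgA : g ∈ A := by
    rw [hg]
    refine A.add_mem _ _ (A.add_mem _ _ (A.mul_mem _ _ hb₄ htA) ?_) ?_
    · exact A.mul_mem _ _ (A.mul_mem _ _ (A.mul_mem _ _ hb₆ htA) hXA) ht1A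
    · exact A.mul_mem _ _ (A.mul_mem _ _ hb₈ (pow_mem htA 2)) (pow_mem hXA 2)
  obtain ⟨h', hh'⟩ : ∃ h', h' = b₂ * t + b₄ * t * X * (t + 1) + b₆ * t ^ 2 * X ^ 2 := ⟨_, rfl⟩
  have hh'A : h' ∈ A := by
    rw [hh']
    refine A.add_mem _ _ (A.add_mem _ _ (A.mul_mem _ _ hb₂ htA) ?_) ?_
    · exact A.mul_mem _ _ (A.mul_mem _ _ (A.mul_mem _ _ hb₄ htA) hXA) ht1A
    · exact A.mul_mem _ _ (A.mul_mem _ _ hb₆ (pow_mem htA 2)) (pow_mem hXA 2)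
  have hm : (g * X) * X ∈ A.nonunits :=
    nt2_mul_mem_nonunits A (A.mul_mem _ _ hgA hXA) hXnu
  obtain ⟨d, hdA, hd⟩ := nt2_inv_one_sub_mem A hm
  have hD0 : (1 - g * X * X) ≠ 0 := by
    intro h0
    rw [h0, mul_zero] at hd
    exact zero_ne_one hd
  -- the product and sum numerators in terms of `X`
  have hPi : ((X₁⁻¹ * X⁻¹) ^ 2 - b₄ * X₁⁻¹ * X⁻¹ - b₆ * (X₁⁻¹ + X⁻¹) - b₈) * (X₁ * X) ^ 2 =
      1 - g * X * X := by
    have e : ((X₁⁻¹ * X⁻¹) ^ 2 - b₄ * X₁⁻¹ * X⁻¹ - b₆ * (X₁⁻¹ + X⁻¹) - b₈) * (X₁ * X) ^ 2 =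
        1 - b₄ * X₁ * X - b₆ * X₁ * X * (X₁ + X) - b₈ * X₁ ^ 2 * X ^ 2 := by
      field_simp
      ring
    rw [e, hX₁, hg]
    ring
  have hS : (2 * X₁⁻¹ * X⁻¹ * (X₁⁻¹ + X⁻¹) + b₂ * X₁⁻¹ * X⁻¹ + b₄ * (X₁⁻¹ + X⁻¹) + b₆) *
      (X₁ * X) ^ 2 = 2 * X * (t + 1) + X ^ 2 * h' := by
    have e : (2 * X₁⁻¹ * X⁻¹ * (X₁⁻¹ + X⁻¹) + b₂ * X₁⁻¹ * X⁻¹ + b₄ * (X₁⁻¹ + X⁻¹) + b₆) *
        (X₁ * X) ^ 2 =
        2 * (X₁ + X) + b₂ * X₁ * X + b₄ * X₁ * X * (X₁ + X) + b₆ * X₁ ^ 2 * X ^ 2 := by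
      field_simp
      ring
    rw [e, hX₁, hh']
    ring
  have hPi0 : ((X₁⁻¹ * X⁻¹) ^ 2 - b₄ * X₁⁻¹ * X⁻¹ - b₆ * (X₁⁻¹ + X⁻¹) - b₈) ≠ 0 := by
    intro h0
    rw [h0, zero_mul] at hPi
    exact hD0 hPi.symm
  have hx₃ : x₃ ≠ 0 := by
    rintro rfl
    rw [zero_mul, zero_mul] at hprod
    exact hPi0 hprod.symm
  refine ⟨hx₃, 2 * c₁ + (h' + 2 * X * (t + 1) * g) * d - c₄, ?_, ?_⟩
  · refine A.sub_mem (A.add_mem _ _ (A.mul_mem _ _ h2A hc₁) (A.mul_mem _ _ ?_ hdA)) hc₄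
    refine A.add_mem _ _ hh'A (A.mul_mem _ _ (A.mul_mem _ _ (A.mul_mem _ _ h2A hXA) ht1A) hgA)
  · have key : (x₃⁻¹ + X₄) *
        ((X₁⁻¹ * X⁻¹) ^ 2 - b₄ * X₁⁻¹ * X⁻¹ - b₆ * (X₁⁻¹ + X⁻¹) - b₈) =
        2 * X₁⁻¹ * X⁻¹ * (X₁⁻¹ + X⁻¹) + b₂ * X₁⁻¹ * X⁻¹ + b₄ * (X₁⁻¹ + X⁻¹) + b₆ := by
      rw [← hprod, ← hsum]
      have e : (x₃⁻¹ + X₄) * (x₃ * X₄⁻¹) = x₃ + X₄⁻¹ := by
        field_simp
        ring
      calc (x₃⁻¹ + X₄) * (x₃ * X₄⁻¹ * (X₁⁻¹ - X⁻¹) ^ 2)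
          = ((x₃⁻¹ + X₄) * (x₃ * X₄⁻¹)) * (X₁⁻¹ - X⁻¹) ^ 2 := by ring
        _ = (x₃ + X₄⁻¹) * (X₁⁻¹ - X⁻¹) ^ 2 := by rw [e]
    have key2 : (x₃⁻¹ + X₄) * (1 - g * X * X) = 2 * X * (t + 1) + X ^ 2 * h' := by
      rw [← hPi, ← hS, ← key]
      ring
    have key3 : x₃⁻¹ + X₄ = (2 * X * (t + 1) + X ^ 2 * h') * d := by
      rw [← key2]
      calc x₃⁻¹ + X₄ = (x₃⁻¹ + X₄) * (d * (1 - g * X * X)) := by rw [hd, mul_one]
        _ = (x₃⁻¹ + X₄) * (1 - g * X * X) * d := by ring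
    have key4 : x₃⁻¹ = (2 * X * (t + 1) + X ^ 2 * h') * d - X₄ := by
      rw [← key3]; ring
    rw [key4, e₄, ht]
    linear_combination (2 * X * (n₁ + c₁ * X + 1)) * hd

end Valued

section Main

variable {K : Type*} [Field K] [DecidableEq K] (A : ValuationSubring K) (W : WeierstrassCurve K)

/-- **No odd-prime torsion in the kernel of reduction.**  If the `b`-invariants of `W` lie in the
valuation subring `A`, `p` is an odd prime which is a unit of `A`, and `(x, y)` is a point of `W`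
with `x ∉ A`, then `p • (x, y) ≠ 0`. -/
theorem nt2_prime_nsmul_ne_zero_of_not_mem
    (hb₂ : W.b₂ ∈ A) (hb₄ : W.b₄ ∈ A) (hb₆ : W.b₆ ∈ A) (hb₈ : W.b₈ ∈ A)
    {p : ℕ} (hp : p.Prime) (hp2 : p ≠ 2) (hpA : A.valuation (p : K) = 1)
    {x y : K} (h : W.toAffine.Nonsingular x y) (hx : x ∉ A) :
    p • (Affine.Point.some x y h : W.toAffine.Point) ≠ 0 := by
  intro hpP
  obtain ⟨P, hPdef⟩ : ∃ P : W.toAffine.Point, P = Affine.Point.some x y h := ⟨_, rfl⟩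
  rw [← hPdef] at hpP
  have hP0 : P ≠ 0 := by rw [hPdef]; exact Affine.Point.some_ne_zero _
  have : Fact p.Prime := ⟨hp⟩
  have hord : addOrderOf P = p := addOrderOf_eq_prime hpP hP0
  have hk0 : ∀ k : ℕ, 0 < k → k < p → k • P ≠ 0 := by
    intro k hk hkp h0
    have hdvd := addOrderOf_dvd_of_nsmul_eq_zero h0
    rw [hord] at hdvd
    exact absurd (Nat.le_of_dvd hk hdvd) (not_le.mpr hkp)
  have hx0 : x ≠ 0 := fun h0 => hx (h0 ▸ A.zero_mem)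
  obtain ⟨X, hX⟩ : ∃ X : K, X = x⁻¹ := ⟨_, rfl⟩
  have hXA : X ∈ A := by rw [hX]; exact (A.mem_or_inv_mem x).resolve_left hx
  have hXnu : X ∈ A.nonunits := by rw [hX]; exact A.inv_mem_nonunits_iff.mpr (Or.inr hx)
  have hX0 : X ≠ 0 := by rw [hX]; exact inv_ne_zero hx0
  have hxP : xOf P = X⁻¹ := by rw [hPdef, hX, inv_inv]; rfl
  obtain ⟨j₀, hj₀⟩ : ∃ j₀, p = 2 * j₀ + 1 := by
    rcases hp.eq_two_or_odd' with h2 | hodd
    · exact absurd h2 hp2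
    · exact hodd
  have hj₀1 : 1 ≤ j₀ := by
    have := hp.two_le
    omega
  -- main induction
  have main : ∀ k : ℕ, 1 ≤ k → 2 * k ≤ p + 1 →
      xOf (k • P) ≠ 0 ∧ ∃ c ∈ A, (xOf (k • P))⁻¹ = (k : K) ^ 2 * X + c * X ^ 2 := by
    intro k
    induction k using Nat.strong_induction_on with
    | _ k ih =>
      intro hk1 hkp
      rcases Nat.lt_or_ge k 3 with hk3 | hk3
      · interval_cases k
        · refine ⟨by rw [one_nsmul, hxP]; exact inv_ne_zero hX0, 0, A.zero_mem, ?_⟩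
          rw [one_nsmul, hxP, inv_inv]
          push_cast
          ring
        · have h2P : (2 : ℕ) • P ≠ 0 := hk0 2 (by norm_num) (by omega)
          have hdbl := nt2_double W hP0 h2P
          rw [hxP] at hdbl
          simp only [psi2Sq, dupNum] at hdbl
          obtain ⟨hne, c, hc, e⟩ := nt2_dbl_estimate A hb₂ hb₄ hb₆ hb₈ hXA hXnu hX0 hdbl
          refine ⟨hne, c, hc, ?_⟩
          rw [e]
          push_cast
          ring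
      · obtain ⟨j, rfl⟩ : ∃ j, k = j + 2 := ⟨k - 2, by omega⟩
        obtain ⟨hR_ne, hR_near⟩ := ih (j + 1) (by omega) (by omega) (by omega)
        obtain ⟨hQ_ne, hQ_near⟩ := ih j (by omega) (by omega) (by omega)
        have hR0 : (j + 1) • P ≠ 0 := hk0 (j + 1) (by omega) (by omega)
        have hsumP : (j + 1) • P + P = (j + 2) • P := by
          rw [← succ_nsmul]
        have hsubP : (j + 1) • P - P = j • P := by
          rw [succ_nsmul, add_sub_cancel_right]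
        have hxne : xOf ((j + 1) • P) ≠ xOf P := by
          intro hxeq
          rcases nt2_eq_or_eq_neg W hR0 hP0 hxeq with h1 | h1
          · have h0 : j • P = 0 := by rw [← hsubP, h1, sub_self]
            exact hk0 j (by omega) (by omega) h0
          · have h0 : (j + 2) • P = 0 := by rw [← hsumP, h1, neg_add_cancel]
            exact hk0 (j + 2) (by omega) (by omega) h0
        obtain ⟨-, -, hs, hpr⟩ := nt2_kummer W hR0 hP0 hxne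
        rw [hsumP, hsubP, hxP] at hs hpr
        simp only [sumNum, prodNum] at hs hpr
        have hstep := nt2_step A hb₂ hb₄ hb₆ hb₈ (X := X) (X₁ := (xOf ((j + 1) • P))⁻¹)
          (X₄ := (xOf (j • P))⁻¹) (x₃ := xOf ((j + 2) • P)) hXA hXnu hX0
          (inv_ne_zero hR_ne) (inv_ne_zero hQ_ne) (n₁ := ((j + 1 : ℕ) : K) ^ 2)
          (n₄ := (j : K) ^ 2) (pow_mem (natCast_mem A (j + 1)) 2) hR_near hQ_near
          (by rw [inv_inv, inv_inv]; exact hs) (by rw [inv_inv, inv_inv]; exact hpr)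
        obtain ⟨hne, c, hc, e⟩ := hstep
        refine ⟨hne, c, hc, ?_⟩
        rw [e]
        push_cast
        ring
  obtain ⟨-, c, hc, e⟩ := main j₀ hj₀1 (by omega)
  obtain ⟨-, c', hc', e'⟩ := main (j₀ + 1) (by omega) (by omega)
  have hneg : (j₀ + 1) • P = -(j₀ • P) := by
    apply eq_neg_of_add_eq_zero_left
    rw [← add_nsmul]
    have : j₀ + 1 + j₀ = p := by omega
    rw [this, hpP]
  rw [hneg, xOf_neg, e] at e'
  -- `p * X = (c - c') * X ^ 2`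
  have hpX : (p : K) = (c - c') * X := by
    have h1 : (p : K) * X = (c - c') * X * X := by
      rw [hj₀]
      push_cast at e' ⊢
      linear_combination (-1 : K) * e'
    exact mul_right_cancel₀ hX0 h1
  have hpnu : (p : K) ∈ A.nonunits := by
    rw [hpX]
    exact nt2_mul_mem_nonunits A (A.sub_mem hc hc') hXnu
  have hlt : A.valuation (p : K) < 1 := A.mem_nonunits_iff.mp hpnu
  rw [hpA] at hlt
  exact lt_irrefl _ hlt


/-! ### Closure of the kernel of reduction under `±` and multiples -/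

open Fermat.Agent.S05 (inv_mem_of_not_mem ne_zero_of_not_mem valuation_inv_lt_one
  not_mem_of_valuation_inv_lt_one valuation_eq_one_of_sub_lt)

theorem nt2_two_mem : (2 : K) ∈ A := by
  have : (2 : K) = 1 + 1 := by norm_num
  rw [this]; exact A.add_mem _ _ A.one_mem A.one_mem

/-- If the sum and the product of two elements lie in the maximal ideal, so does each of them. -/
theorem nt2_val_lt_one_of_sum_prod {a b : K} (hab : A.valuation (a + b) < 1)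
    (hmul : A.valuation (a * b) < 1) : A.valuation a < 1 := by
  by_contra hcon
  rw [not_lt] at hcon
  have hb1 : A.valuation b < 1 := by
    by_contra hb'
    rw [not_lt] at hb'
    have : 1 ≤ A.valuation (a * b) := by
      rw [map_mul]; exact one_le_mul_of_one_le_of_one_le hcon hb'
    exact absurd hmul (not_lt.mpr this)
  have : A.valuation (a + b) = A.valuation a :=
    A.valuation.map_add_eq_of_lt_left (lt_of_lt_of_le hb1 hcon)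
  rw [this] at hab
  exact absurd hab (not_lt.mpr hcon)

/-- Chord case: `x₁ ≠ x₂`, both outside `A`. -/
theorem nt2_step_inKerRed (hb₂ : W.b₂ ∈ A) (hb₄ : W.b₄ ∈ A) (hb₆ : W.b₆ ∈ A) (hb₈ : W.b₈ ∈ A)
    {R Q : W.toAffine.Point} (hR : R ≠ 0) (hQ : Q ≠ 0) (hx : xOf R ≠ xOf Q)
    (hxR : xOf R ∉ A) (hxQ : xOf Q ∉ A) :
    InKerRed A (R + Q) ∧ InKerRed A (R - Q) := by
  obtain ⟨-, -, hs, hpr⟩ := nt2_kummer W hR hQ hx
  set x₁ := xOf R with hx₁def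
  set x₂ := xOf Q with hx₂def
  set xp := xOf (R + Q) with hxpdef
  set xm := xOf (R - Q) with hxmdef
  have hx₁0 := ne_zero_of_not_mem hxR
  have hx₂0 := ne_zero_of_not_mem hxQ
  set X₁ := x₁⁻¹ with hX₁
  set X₂ := x₂⁻¹ with hX₂
  have hX₁A : X₁ ∈ A := inv_mem_of_not_mem hxR
  have hX₂A : X₂ ∈ A := inv_mem_of_not_mem hxQ
  have hv₁ : A.valuation X₁ < 1 := valuation_inv_lt_one hxR
  have hv₂ : A.valuation X₂ < 1 := valuation_inv_lt_one hxQ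
  have h2A := nt2_two_mem A
  set Shat : K := 2 * (X₁ + X₂) + W.b₂ * X₁ * X₂ + W.b₄ * (X₁ + X₂) * X₁ * X₂ +
    W.b₆ * X₁ ^ 2 * X₂ ^ 2 with hShat
  set Phat : K := 1 - W.b₄ * X₁ * X₂ - W.b₆ * (X₁ + X₂) * X₁ * X₂ - W.b₈ * X₁ ^ 2 * X₂ ^ 2
    with hPhat
  have hS : sumNum W x₁ x₂ * (X₁ ^ 2 * X₂ ^ 2) = Shat := by
    simp only [sumNum, hShat, hX₁, hX₂]; field_simp; ring
  have hP : prodNum W x₁ x₂ * (X₁ ^ 2 * X₂ ^ 2) = Phat := by
    simp only [prodNum, hPhat, hX₁, hX₂]; field_simp; ring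
  have hD : (x₁ - x₂) * (X₁ * X₂) = X₂ - X₁ := by
    simp only [hX₁, hX₂]; field_simp
  have hPm : A.valuation (Phat - 1) < 1 := by
    have e : Phat - 1 = X₁ * (-(W.b₄ * X₂) - W.b₆ * (X₁ + X₂) * X₂ - W.b₈ * X₁ * X₂ ^ 2) := by
      simp only [hPhat]; ring
    rw [e, map_mul]
    have hmem : (-(W.b₄ * X₂) - W.b₆ * (X₁ + X₂) * X₂ - W.b₈ * X₁ * X₂ ^ 2) ∈ A :=
      sub_mem (sub_mem (neg_mem (mul_mem hb₄ hX₂A))
        (mul_mem (mul_mem hb₆ (add_mem hX₁A hX₂A)) hX₂A))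
        (mul_mem (mul_mem hb₈ hX₁A) (pow_mem hX₂A 2))
    calc A.valuation X₁ * A.valuation _ ≤ A.valuation X₁ * 1 :=
          mul_le_mul' le_rfl ((A.valuation_le_one_iff _).mpr hmem)
      _ < 1 := by rw [mul_one]; exact hv₁
  have hPv : A.valuation Phat = 1 := valuation_eq_one_of_sub_lt hPm
  have hP0 : Phat ≠ 0 := by
    intro h; rw [h, map_zero] at hPv; exact zero_ne_one hPv
  have hs' : (xp + xm) * (X₂ - X₁) ^ 2 = Shat := by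
    rw [← hS, ← hs, ← hD]; ring
  have hpr' : (xp * xm) * (X₂ - X₁) ^ 2 = Phat := by
    rw [← hP, ← hpr, ← hD]; ring
  have hxp0 : xp ≠ 0 := by
    intro h0; apply hP0; rw [← hpr', h0]; ring
  have hxm0 : xm ≠ 0 := by
    intro h0; apply hP0; rw [← hpr', h0]; ring
  have hD0 : (X₂ - X₁) ^ 2 ≠ 0 := by
    intro h; apply hP0; rw [← hpr', h]; ring
  have hD0' : X₂ - X₁ ≠ 0 := fun h => hD0 (by rw [h]; ring)
  have hsum : xp⁻¹ + xm⁻¹ = Shat / Phat := by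
    rw [← hs', ← hpr']; field_simp; ring
  have hprod : xp⁻¹ * xm⁻¹ = (X₂ - X₁) ^ 2 / Phat := by
    rw [← hpr']; field_simp
  have hShatv : A.valuation Shat < 1 := by
    have e : Shat = X₁ * (2 + W.b₂ * X₂ + W.b₄ * (X₁ + X₂) * X₂ + W.b₆ * X₁ * X₂ ^ 2) +
        X₂ * 2 := by
      simp only [hShat]; ring
    rw [e]
    refine lt_of_le_of_lt (A.valuation.map_add _ _) (max_lt ?_ ?_)
    · rw [map_mul]
      have hmem : (2 + W.b₂ * X₂ + W.b₄ * (X₁ + X₂) * X₂ + W.b₆ * X₁ * X₂ ^ 2) ∈ A :=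
        add_mem (add_mem (add_mem h2A (mul_mem hb₂ hX₂A))
          (mul_mem (mul_mem hb₄ (add_mem hX₁A hX₂A)) hX₂A))
          (mul_mem (mul_mem hb₆ hX₁A) (pow_mem hX₂A 2))
      calc A.valuation X₁ * A.valuation _ ≤ A.valuation X₁ * 1 :=
            mul_le_mul' le_rfl ((A.valuation_le_one_iff _).mpr hmem)
        _ < 1 := by rw [mul_one]; exact hv₁
    · rw [map_mul]
      calc A.valuation X₂ * A.valuation 2 ≤ A.valuation X₂ * 1 :=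
            mul_le_mul' le_rfl ((A.valuation_le_one_iff _).mpr h2A)
        _ < 1 := by rw [mul_one]; exact hv₂
  have hSv : A.valuation (xp⁻¹ + xm⁻¹) < 1 := by
    rw [hsum, map_div₀, hPv, div_one]; exact hShatv
  have hPiv : A.valuation (xp⁻¹ * xm⁻¹) < 1 := by
    rw [hprod, map_div₀, hPv, div_one, map_pow]
    have : A.valuation (X₂ - X₁) < 1 :=
      lt_of_le_of_lt (A.valuation.map_sub _ _) (max_lt hv₂ hv₁)
    calc A.valuation (X₂ - X₁) ^ 2 = A.valuation (X₂ - X₁) * A.valuation (X₂ - X₁) := sq _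
      _ ≤ A.valuation (X₂ - X₁) * 1 := mul_le_mul' le_rfl this.le
      _ < 1 := by rw [mul_one]; exact this
  refine ⟨Or.inr ?_, Or.inr ?_⟩
  · exact not_mem_of_valuation_inv_lt_one hxp0 (nt2_val_lt_one_of_sum_prod A hSv hPiv)
  · refine not_mem_of_valuation_inv_lt_one hxm0 (nt2_val_lt_one_of_sum_prod A (b := xp⁻¹) ?_ ?_)
    · rwa [add_comm]
    · rwa [mul_comm]

/-- Tangent case: doubling keeps the kernel of reduction. -/
theorem nt2_double_inKerRed (hb₂ : W.b₂ ∈ A) (hb₄ : W.b₄ ∈ A) (hb₆ : W.b₆ ∈ A) (hb₈ : W.b₈ ∈ A)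
    {P : W.toAffine.Point} (hP : P ≠ 0) (hx : xOf P ∉ A) : InKerRed A ((2 : ℕ) • P) := by
  by_cases h2 : (2 : ℕ) • P = 0
  · exact Or.inl h2
  right
  have hx0 := ne_zero_of_not_mem hx
  have hXA : (xOf P)⁻¹ ∈ A := inv_mem_of_not_mem hx
  have hXnu : (xOf P)⁻¹ ∈ A.nonunits := A.mem_nonunits_iff.mpr (valuation_inv_lt_one hx)
  have hX0 : (xOf P)⁻¹ ≠ 0 := inv_ne_zero hx0
  have hdbl := nt2_double W hP h2
  simp only [psi2Sq, dupNum] at hdbl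
  obtain ⟨hne, c, hc, e⟩ := nt2_dbl_estimate A hb₂ hb₄ hb₆ hb₈ hXA hXnu hX0
    (x₂ := xOf ((2 : ℕ) • P)) (by rw [inv_inv]; exact hdbl)
  apply not_mem_of_valuation_inv_lt_one hne
  rw [e]
  have hmem : 4 + c * (xOf P)⁻¹ ∈ A := by
    have h4 : (4 : K) ∈ A := by
      have : (4 : K) = 2 * 2 := by norm_num
      rw [this]; exact A.mul_mem _ _ (nt2_two_mem A) (nt2_two_mem A)
    exact A.add_mem _ _ h4 (A.mul_mem _ _ hc hXA)
  have e2 : 4 * (xOf P)⁻¹ + c * (xOf P)⁻¹ ^ 2 = (4 + c * (xOf P)⁻¹) * (xOf P)⁻¹ := by ring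
  rw [e2]
  exact A.mem_nonunits_iff.mp (nt2_mul_mem_nonunits A hmem hXnu)

/-- **The kernel of reduction is closed under `±`** (no hypothesis on `2`). -/
theorem nt2_add_sub (hb₂ : W.b₂ ∈ A) (hb₄ : W.b₄ ∈ A) (hb₆ : W.b₆ ∈ A) (hb₈ : W.b₈ ∈ A)
    {P Q : W.toAffine.Point} (hP : InKerRed A P) (hQ : InKerRed A Q) :
    InKerRed A (P + Q) ∧ InKerRed A (P - Q) := by
  rcases eq_or_ne P 0 with rfl | hP0
  · rw [zero_add, zero_sub]; exact ⟨hQ, hQ.neg⟩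
  rcases eq_or_ne Q 0 with rfl | hQ0
  · rw [add_zero, sub_zero]; exact ⟨hP, hP⟩
  have hxP : xOf P ∉ A := hP.resolve_left hP0
  have hxQ : xOf Q ∉ A := hQ.resolve_left hQ0
  by_cases hx : xOf P = xOf Q
  · rcases nt2_eq_or_eq_neg W hP0 hQ0 hx with rfl | rfl
    · rw [sub_self, ← two_nsmul]
      exact ⟨nt2_double_inKerRed A W hb₂ hb₄ hb₆ hb₈ hP0 hxP, Or.inl rfl⟩
    · rw [neg_add_cancel]
      refine ⟨Or.inl rfl, ?_⟩
      have : -Q - Q = -((2 : ℕ) • Q) := by rw [two_nsmul]; abel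
      rw [this]
      exact (nt2_double_inKerRed A W hb₂ hb₄ hb₆ hb₈ hQ0 hxQ).neg
  · exact nt2_step_inKerRed A W hb₂ hb₄ hb₆ hb₈ hP0 hQ0 hx hxP hxQ

/-- Multiples stay in the kernel of reduction. -/
theorem nt2_nsmul_inKerRed (hb₂ : W.b₂ ∈ A) (hb₄ : W.b₄ ∈ A) (hb₆ : W.b₆ ∈ A) (hb₈ : W.b₈ ∈ A)
    {T : W.toAffine.Point} (hT : InKerRed A T) (k : ℕ) : InKerRed A (k • T) := by
  induction k with
  | zero => rw [zero_nsmul]; exact Or.inl rfl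
  | succ k ih =>
    rw [succ_nsmul]
    exact (nt2_add_sub A W hb₂ hb₄ hb₆ hb₈ ih hT).1

/-- No `2`-torsion in the kernel of reduction when `2` is a unit. -/
theorem nt2_two_nsmul_ne_zero (hb₂ : W.b₂ ∈ A) (hb₄ : W.b₄ ∈ A) (hb₆ : W.b₆ ∈ A)
    (h2 : A.valuation (2 : K) = 1) {x y : K} (h : W.toAffine.Nonsingular x y) (hx : x ∉ A) :
    (2 : ℕ) • (Affine.Point.some x y h : W.toAffine.Point) ≠ 0 := by
  intro h0
  have hy : y = W.toAffine.negY x y := by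
    by_contra hy
    rw [two_nsmul, Affine.Point.add_self_of_Y_ne hy] at h0
    exact Affine.Point.some_ne_zero _ h0
  have hpsi : psi2Sq W x = 0 := by
    rw [nt2_dblDen_eq_sq W h.1]
    have : 2 * y + W.a₁ * x + W.a₃ = 0 := by
      rw [Affine.negY] at hy; linear_combination hy
    rw [this]; ring
  have hx0 := ne_zero_of_not_mem hx
  have hXA : x⁻¹ ∈ A := inv_mem_of_not_mem hx
  have hXnu : x⁻¹ ∈ A.nonunits := A.mem_nonunits_iff.mpr (valuation_inv_lt_one hx)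
  have h4 : (4 : K) = -((W.b₂ + 2 * W.b₄ * x⁻¹ + W.b₆ * x⁻¹ ^ 2) * x⁻¹) := by
    simp only [psi2Sq] at hpsi
    field_simp
    linear_combination hpsi
  have hmem : (W.b₂ + 2 * W.b₄ * x⁻¹ + W.b₆ * x⁻¹ ^ 2) ∈ A :=
    A.add_mem _ _ (A.add_mem _ _ hb₂ (A.mul_mem _ _ (A.mul_mem _ _ (nt2_two_mem A) hb₄) hXA))
      (A.mul_mem _ _ hb₆ (pow_mem hXA 2))
  have hlt : A.valuation (4 : K) < 1 := by
    rw [h4, Valuation.map_neg]
    exact A.mem_nonunits_iff.mp (nt2_mul_mem_nonunits A hmem hXnu)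
  have h41 : A.valuation (4 : K) = 1 := by
    have : (4 : K) = 2 * 2 := by norm_num
    rw [this, map_mul, h2, one_mul]
  rw [h41] at hlt
  exact lt_irrefl _ hlt

/-- A prime which is a unit of `A` kills no nonzero point of the kernel of reduction. -/
theorem nt2_prime_nsmul_ne_zero (hb₂ : W.b₂ ∈ A) (hb₄ : W.b₄ ∈ A) (hb₆ : W.b₆ ∈ A)
    (hb₈ : W.b₈ ∈ A) {ℓ : ℕ} (hℓ : ℓ.Prime) (hℓA : A.valuation (ℓ : K) = 1)
    {x y : K} (h : W.toAffine.Nonsingular x y) (hx : x ∉ A) :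
    ℓ • (Affine.Point.some x y h : W.toAffine.Point) ≠ 0 := by
  rcases eq_or_ne ℓ 2 with rfl | hℓ2
  · exact nt2_two_nsmul_ne_zero A W hb₂ hb₄ hb₆ (by exact_mod_cast hℓA) h hx
  · exact nt2_prime_nsmul_ne_zero_of_not_mem A W hb₂ hb₄ hb₆ hb₈ hℓ hℓ2 hℓA h hx

end Main

section Final

variable {F : Type*} [Field F] [DecidableEq F] {W : Affine F} {A : ValuationSubring F}

/-- **[NT2]** The kernel of reduction has no `n`-torsion for `n` a unit of `A`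
(any residue characteristic). -/
theorem nt2_eq_zero_of_nsmul_eq_zero (hb₂ : W.b₂ ∈ A) (hb₄ : W.b₄ ∈ A) (hb₆ : W.b₆ ∈ A)
    (hb₈ : W.b₈ ∈ A) {n : ℕ} (hn : A.valuation (n : F) = 1) {T : W.Point}
    (hT : InKerRed A T) (hnT : n • T = 0) : T = 0 := by
  by_contra hT0
  have hn0 : n ≠ 0 := by
    rintro rfl
    rw [Nat.cast_zero, map_zero] at hn
    exact zero_ne_one hn
  -- the order `d` of `T` divides `n`
  set d := addOrderOf T with hd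
  have hdn : d ∣ n := addOrderOf_dvd_of_nsmul_eq_zero hnT
  have hd0 : d ≠ 0 := fun h0 => hn0 (Nat.eq_zero_of_zero_dvd (h0 ▸ hdn))
  have hd1 : d ≠ 1 := by
    intro h1
    exact hT0 (AddMonoid.addOrderOf_eq_one_iff.mp h1)
  -- a prime factor `ℓ` of `d`
  obtain ⟨ℓ, hℓ, hℓd⟩ := Nat.exists_prime_and_dvd hd1
  obtain ⟨m, hm⟩ := hℓd
  have hm0 : m ≠ 0 := by
    rintro rfl; rw [mul_zero] at hm; exact hd0 hm
  -- `ℓ` is a unit of `A`
  have hℓA : A.valuation (ℓ : F) = 1 := by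
    obtain ⟨c, hc⟩ := (Dvd.intro m hm.symm : ℓ ∣ d).trans hdn
    have h1 : A.valuation (ℓ : F) * A.valuation (c : F) = 1 := by
      rw [← map_mul, ← Nat.cast_mul, ← hc, hn]
    have hle1 : A.valuation (ℓ : F) ≤ 1 := (A.valuation_le_one_iff _).mpr (natCast_mem A ℓ)
    have hle2 : A.valuation (c : F) ≤ 1 := (A.valuation_le_one_iff _).mpr (natCast_mem A c)
    by_contra hne
    have hlt : A.valuation (ℓ : F) < 1 := lt_of_le_of_ne hle1 hne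
    have : A.valuation (ℓ : F) * A.valuation (c : F) < 1 := by
      calc A.valuation (ℓ : F) * A.valuation (c : F) ≤ A.valuation (ℓ : F) * 1 :=
            mul_le_mul' le_rfl hle2
        _ < 1 := by rw [mul_one]; exact hlt
    rw [h1] at this
    exact lt_irrefl _ this
  -- `T' = m • T` has order `ℓ` and lies in the kernel of reduction
  have hT' : InKerRed A (m • T) := nt2_nsmul_inKerRed A W hb₂ hb₄ hb₆ hb₈ hT m
  have hT'0 : m • T ≠ 0 := by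
    intro h0
    have hdm : d ∣ m := addOrderOf_dvd_of_nsmul_eq_zero h0
    have hle : d ≤ m := Nat.le_of_dvd (Nat.pos_of_ne_zero hm0) hdm
    have : m < d := by
      rw [hm]; exact lt_mul_of_one_lt_left (Nat.pos_of_ne_zero hm0) hℓ.one_lt
    omega
  have hℓT' : ℓ • (m • T) = 0 := by
    rw [← mul_nsmul', ← hm, hd]; exact addOrderOf_nsmul_eq_zero T
  obtain ⟨x, y, h, hxy⟩ := nt2_exists_some W hT'0
  have hx : x ∉ A := by
    have := hT'.resolve_left hT'0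
    rw [hxy] at this
    exact this
  rw [hxy] at hℓT'
  exact nt2_prime_nsmul_ne_zero A W hb₂ hb₄ hb₆ hb₈ hℓ hℓA h hx hℓT'

/-- `InKerRed` is closed under `±` (no hypothesis on `2`), in the `Affine` form. -/
theorem nt2_inKerRed_add_sub (hb₂ : W.b₂ ∈ A) (hb₄ : W.b₄ ∈ A) (hb₆ : W.b₆ ∈ A)
    (hb₈ : W.b₈ ∈ A) {P Q : W.Point} (hP : InKerRed A P) (hQ : InKerRed A Q) :
    InKerRed A (P + Q) ∧ InKerRed A (P - Q) :=
  nt2_add_sub A W hb₂ hb₄ hb₆ hb₈ hP hQ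

end Final

end Fermat.Agent.S13
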