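import Fermat.Agent.S13.Ladder.Vieta
import Fermat.Agent.S13.Ladder.Integral
import Fermat.Agent.S05.FreyLocal
import Fermat.Agent.S05.RatVal
import Fermat.Agent.S05.GaloisAction

/-!
# S13 library, piece [Lp-ii]: a nonzero `p`-torsion point outside the kernel of reduction

Let `W'` be a Weierstrass curve over `ℚ` with `Δ ≠ 0`, `A` a valuation subring of `ℚ̄` lying over
an odd prime `q = 2m+1` at which the `bᵢ` are integral, and `L ⊆ E[q]` a set of points which
contains `0` and a nonzero point, is closed under negation and stable under `Gal(ℚ̄/ℚ)`, and is not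
all of `E[q]`.  Then some nonzero `q`-torsion point has `A`-integral `x`-coordinate, i.e. does
not lie in the kernel of reduction.

Proof (Vieta).  Otherwise every root `r` of the division polynomial
`C_m = -q ∏_{r ∈ S} (X - r)` (`ld_vieta`) is non-integral.  Its constant term
`c₀ = -q ∏ (-r)` is integral (`ldC_coeff_mem_valuationSubring`).  The product `y_L` of the
`x`-coordinates of the nonzero points of `L` is Galois-invariant, hence rational, so
`v(y_L) = v(q)^k`, `k ∈ ℤ`, and `v(y_L) > 1`; the complementary product also has `v > 1`.  Hence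
`1 < v(y_L) < v(q)⁻¹`, which is impossible for an integral power of `v(q) < 1`.

Main statements: `vt_generic` (any `W'`), `lp_exists_not_inKerRed` (Frey curve, `q = p`).
-/

set_option autoImplicit false

namespace Fermat.Agent.S13

open Polynomial WeierstrassCurve WeierstrassCurve.Affine WeierstrassCurve.Affine.Point
open Fermat.Agent.S05

set_option linter.style.haveILetI false
set_option linter.unusedSectionVars false

section Core

/-- In a linearly ordered group with zero, no integral power of `g < 1` lies strictly between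
`1` and `g⁻¹`. -/
theorem vt_no_zpow_between {Γ : Type*} [LinearOrderedCommGroupWithZero Γ] {g : Γ} (hg0 : g ≠ 0)
    (hg : g < 1) (k : ℤ) (h1 : 1 < g ^ k) (h2 : g ^ k < g⁻¹) : False := by
  rcases le_or_gt 0 k with hk | hk
  · obtain ⟨n, rfl⟩ := Int.eq_ofNat_of_zero_le hk
    rw [zpow_natCast] at h1
    exact absurd h1 (not_lt.mpr (pow_le_one₀ zero_le hg.le))
  · obtain ⟨n, hn⟩ := Int.exists_eq_neg_ofNat hk.le
    subst hn
    have hn1 : 1 ≤ n := by omega
    rw [zpow_neg, zpow_natCast, ← inv_pow] at h2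
    have h3 : (1 : Γ) < g⁻¹ := (one_lt_inv₀ (zero_lt_iff.mpr hg0)).mpr hg
    have h4 : g⁻¹ ^ 1 ≤ g⁻¹ ^ n := pow_le_pow_right₀ h3.le hn1
    rw [pow_one] at h4
    exact absurd h2 (not_lt.mpr h4)

/-- Abstract form of the valuation count. -/
theorem vt_aux {Γ : Type*} [LinearOrderedCommGroupWithZero Γ] {g a b c : Γ}
    (hv : c = g * (b * a)) (hc : c ≤ 1) (ha : 1 < a) (hb : 1 < b) (k : ℤ) (hk : a = g ^ k) :
    False := by
  have hg0 : g ≠ 0 := by
    intro h0
    rw [h0, zero_zpow_eq] at hk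
    split_ifs at hk with hk0
    · rw [hk] at ha; exact lt_irrefl _ ha
    · rw [hk] at ha; exact absurd ha (by simp)
  have hgpos : 0 < g := zero_lt_iff.mpr hg0
  have ha0 : 0 < a := lt_trans zero_lt_one ha
  have h4 : a < b * a := lt_mul_of_one_lt_left ha0 hb
  have h5 : g * a < g * (b * a) := mul_lt_mul_of_pos_left h4 hgpos
  have h6 : a * g < 1 := by rw [mul_comm]; exact lt_of_lt_of_le h5 (hv ▸ hc)
  have h2 : a < g⁻¹ := by
    have := (lt_div_iff₀ hgpos).mpr h6
    simpa using this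
  have hg1 : g < 1 := by
    by_contra hge
    rw [not_lt] at hge
    have h7 : (1 : Γ) < g⁻¹ := lt_trans ha h2
    have h8 : g⁻¹ ≤ 1 := inv_le_one_of_one_le₀ hge
    exact absurd h7 (not_lt.mpr h8)
  exact vt_no_zpow_between hg0 hg1 k (hk ▸ ha) (hk ▸ h2)

variable {K : Type*} [Field K] [DecidableEq K] (A : ValuationSubring K)

/-- A nonempty product of elements outside `A` has valuation `> 1`. -/
theorem vt_one_lt_prod {S : Finset K} (hS : S.Nonempty) (h : ∀ r ∈ S, r ∉ A) :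
    1 < A.valuation (∏ r ∈ S, r) := by
  induction hS using Finset.Nonempty.cons_induction with
  | singleton a =>
    rw [Finset.prod_singleton, ← not_le, A.valuation_le_one_iff]
    exact h a (Finset.mem_singleton_self a)
  | cons a s ha hs ih =>
    rw [Finset.prod_cons, map_mul]
    have h1 : 1 < A.valuation a := by
      rw [← not_le, A.valuation_le_one_iff]
      exact h a (Finset.mem_cons_self a s)
    have h2 := ih (fun r hr => h r (Finset.mem_cons.mpr (Or.inr hr)))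
    exact one_lt_mul_of_lt_of_le' h1 h2.le

/-- **Vieta core.** `c0 = -n ∏_{r ∈ S} (-r)` integral, all `r ∈ S` non-integral, `SL ⊊ S`
nonempty with `v(∏_{SL} r) ∈ v(n)^ℤ`: impossible. -/
theorem vt_core (S SL : Finset K) (hsub : SL ⊆ S) (hSL : SL.Nonempty) (hne : (S \ SL).Nonempty)
    (hout : ∀ r ∈ S, r ∉ A) (nn c0 : K) (hc0 : c0 ∈ A) (hprod : c0 = -nn * ∏ r ∈ S, (-r))
    (hval : ∃ k : ℤ, A.valuation (∏ r ∈ SL, r) = A.valuation nn ^ k) : False := by
  obtain ⟨k, hk⟩ := hval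
  have ha := vt_one_lt_prod A hSL (fun r hr => hout r (hsub hr))
  have hb := vt_one_lt_prod A hne (fun r hr => hout r (Finset.mem_sdiff.mp hr).1)
  have hsplit : ∏ r ∈ S, r = (∏ r ∈ S \ SL, r) * ∏ r ∈ SL, r :=
    (Finset.prod_sdiff hsub).symm
  have hneg : A.valuation (∏ r ∈ S, -r) = A.valuation (∏ r ∈ S, r) := by
    rw [map_prod, map_prod]
    exact Finset.prod_congr rfl (fun r _ => Valuation.map_neg _ _)
  have hv : A.valuation c0 = A.valuation nn * (A.valuation (∏ r ∈ S \ SL, r) *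
      A.valuation (∏ r ∈ SL, r)) := by
    rw [hprod, map_mul, Valuation.map_neg, hneg, hsplit, map_mul]
  have hc : A.valuation c0 ≤ 1 := (A.valuation_le_one_iff c0).mpr hc0
  exact vt_aux hv hc ha hb k hk

end Core

local notation "Qb" => AlgebraicClosure ℚ

/-- Two affine points with the same `x`-coordinate are equal or opposite. -/
theorem vt_eq_or_eq_neg {K : Type*} [Field K] [DecidableEq K] {W : Affine K} {x y y' : K}
    (h : W.Nonsingular x y) (h' : W.Nonsingular x y') :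
    Point.some x y h = Point.some x y' h' ∨ Point.some x y h = -Point.some x y' h' := by
  rcases Y_eq_of_X_eq h.1 h'.1 rfl with hy | hy
  · left; subst hy; rfl
  · right
    rw [Point.neg_some]
    subst hy
    rfl

/-- Constant coefficient of `C a * ∏ (X - C r)`. -/
theorem vt_coeff_zero {K : Type*} [Field K] (a : K) (S : Finset K) :
    (C a * ∏ r ∈ S, (X - C r)).coeff 0 = a * ∏ r ∈ S, (-r) := by
  rw [coeff_zero_eq_eval_zero, eval_mul, eval_C, eval_prod]
  congr 1
  refine Finset.prod_congr rfl (fun r _ => ?_)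
  rw [eval_sub, eval_X, eval_C, zero_sub]

theorem vt_isGalois : IsGalois ℚ Qb :=
  haveI : Algebra.IsAlgebraic ℚ Qb := AlgebraicClosure.isAlgebraic ℚ
  haveI : IsAlgClosure ℚ Qb := ⟨inferInstance, inferInstance⟩
  IsAlgClosure.isGalois ℚ Qb

theorem vt_generic (W' : Affine ℚ) (hΔ : (W'⁄Qb).Δ ≠ 0) (A : ValuationSubring Qb)
    {q : ℕ} (hq : A.LiesOverPrime q) (hqp : q.Prime) (hq2 : q ≠ 2)
    (hb₂ : (W'⁄Qb).b₂ ∈ A) (hb₄ : (W'⁄Qb).b₄ ∈ A) (hb₆ : (W'⁄Qb).b₆ ∈ A) (hb₈ : (W'⁄Qb).b₈ ∈ A)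
    (L : Set (W'⁄Qb).Point) (h0 : (0 : (W'⁄Qb).Point) ∈ L) (hL0 : ∃ T ∈ L, T ≠ 0)
    (hLp : ∀ T ∈ L, q • T = 0) (hLneg : ∀ T ∈ L, -T ∈ L)
    (hLstab : ∀ σ : Qb ≃ₐ[ℚ] Qb, ∀ T ∈ L, σ • T ∈ L)
    (hLne : ∃ T : (W'⁄Qb).Point, q • T = 0 ∧ T ∉ L) :
    ∃ T : (W'⁄Qb).Point, q • T = 0 ∧ T ≠ 0 ∧ ¬ InKerRed A T := by
  classical
  by_contra hcon
  push Not at hcon
  obtain ⟨m, hm⟩ : ∃ m, q = 2 * m + 1 := by
    rcases hqp.eq_two_or_odd' with h | h
    · exact absurd h hq2
    · exact h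
  subst hm
  obtain ⟨S, hS, hfac⟩ := ld_vieta (W'⁄Qb) hΔ m
  -- every root is non-integral
  have hout : ∀ r ∈ S, r ∉ A := by
    intro r hr
    obtain ⟨y, h, hT⟩ := (hS r).mp hr
    have := hcon _ hT (by simp)
    exact (inKerRed_some h).mp this
  set SL : Finset Qb := S.filter (fun r => ∃ (y : Qb) (h : (W'⁄Qb).Nonsingular r y),
    Point.some r y h ∈ L) with hSLdef
  have hsub : SL ⊆ S := Finset.filter_subset _ _
  have hSL : SL.Nonempty := by
    obtain ⟨T, hTL, hT0⟩ := hL0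
    rcases T with _ | ⟨x, y, h⟩
    · exact absurd rfl hT0
    · refine ⟨x, Finset.mem_filter.mpr ⟨(hS x).mpr ⟨y, h, hLp _ hTL⟩, y, h, hTL⟩⟩
  have hne : (S \ SL).Nonempty := by
    obtain ⟨T, hT, hTL⟩ := hLne
    rcases T with _ | ⟨x, y, h⟩
    · exact absurd h0 hTL
    · refine ⟨x, Finset.mem_sdiff.mpr ⟨(hS x).mpr ⟨y, h, hT⟩, fun hx => ?_⟩⟩
      obtain ⟨-, y', h', hL'⟩ := Finset.mem_filter.mp hx
      rcases vt_eq_or_eq_neg h h' with e | e
      · exact hTL (e ▸ hL')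
      · exact hTL (e ▸ hLneg _ hL')
  have hc0 : (ldC (ldPoly (W'⁄Qb)) m).coeff 0 ∈ A :=
    ldC_coeff_mem_valuationSubring A (W'⁄Qb) hb₂ hb₄ hb₆ hb₈ m 0
  have hprod : (ldC (ldPoly (W'⁄Qb)) m).coeff 0 =
      -((2 * m + 1 : ℕ) : Qb) * ∏ r ∈ S, (-r) := by
    rw [hfac, vt_coeff_zero]
  -- Galois invariance of `∏ SL`
  have himg : ∀ σ : Qb ≃ₐ[ℚ] Qb, SL.image σ = SL := by
    intro σ
    refine Finset.eq_of_subset_of_card_le ?_ ?_
    · intro r' hr'
      obtain ⟨r, hr, rfl⟩ := Finset.mem_image.mp hr'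
      obtain ⟨-, y, h, hTL⟩ := Finset.mem_filter.mp hr
      have h1 := hLstab σ _ hTL
      rw [Fermat.Agent.S05.smul_some σ h] at h1
      refine Finset.mem_filter.mpr ⟨(hS _).mpr ⟨σ y, _, hLp _ h1⟩, σ y, _, h1⟩
    · rw [Finset.card_image_of_injective _ σ.injective]
  have hfix : ∀ σ : Qb ≃ₐ[ℚ] Qb, σ (∏ r ∈ SL, r) = ∏ r ∈ SL, r := by
    intro σ
    rw [map_prod]
    conv_rhs => rw [← himg σ]
    rw [Finset.prod_image (fun a _ b _ hab => σ.injective hab)]
  haveI := vt_isGalois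
  obtain ⟨t, ht⟩ := (InfiniteGalois.mem_range_algebraMap_iff_fixed (k := ℚ) (K := Qb) _).mpr hfix
  have hprod0 : (∏ r ∈ SL, r) ≠ 0 := by
    rw [Finset.prod_ne_zero_iff]
    intro r hr h0'
    exact hout r (hsub hr) (h0' ▸ A.zero_mem)
  have ht0 : t ≠ 0 := by
    rintro rfl
    rw [_root_.map_zero] at ht
    exact hprod0 ht.symm
  have hval : ∃ k : ℤ, A.valuation (∏ r ∈ SL, r) = A.valuation (((2 * m + 1 : ℕ) : Qb)) ^ k := by
    refine ⟨padicValRat (2 * m + 1) t, ?_⟩
    rw [← ht, eq_ratCast]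
    exact ratVal_eq_zpow A hq hqp ht0
  exact vt_core A S SL hsub hSL hne hout _ _ hc0 hprod hval

/-- **[Lp-ii] for the Frey curve at `p`.**  If `L ⊆ E[p]` is a proper, nonzero, Galois-stable set
of points closed under negation and containing `0` (e.g. a stable line), then some nonzero
`p`-torsion point is not in the kernel of reduction at `A` (a place above `p`). -/
theorem lp_exists_not_inKerRed (P : FreyPackage) (A : ValuationSubring Qb)
    (hA : A.LiesOverPrime P.p)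
    (L : Set (P.freyCurve⁄Qb).Point) (h0 : (0 : (P.freyCurve⁄Qb).Point) ∈ L)
    (hL0 : ∃ T ∈ L, T ≠ 0) (hLp : ∀ T ∈ L, P.p • T = 0) (hLneg : ∀ T ∈ L, -T ∈ L)
    (hLstab : ∀ σ : Qb ≃ₐ[ℚ] Qb, ∀ T ∈ L, σ • T ∈ L)
    (hLne : ∃ T : (P.freyCurve⁄Qb).Point, P.p • T = 0 ∧ T ∉ L) :
    ∃ T : (P.freyCurve⁄Qb).Point, P.p • T = 0 ∧ T ≠ 0 ∧ ¬ InKerRed A T := by
  have hp2 : P.p ≠ 2 := by have := P.hp5; omega
  have hW := freyL_integralModel P A hA P.pp hp2
  exact vt_generic P.freyCurve (freyL_Δ_ne_zero P) A hA P.pp hp2 hW.b₂ hW.b₄ hW.b₆ hW.b₈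
    L h0 hL0 hLp hLneg hLstab hLne

end Fermat.Agent.S13
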