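import Fermat.Agent.S05.FreyQbar
import Fermat.Agent.S13.Comp.Hom

/-!
# S13 library (F2): the Frey curve at the prime `2`

`a ≡ 3 mod 4`, `b` even, `p ≥ 5`:  `a₂ ∈ ℤ`, `a₄ = -a^p b^p / 16` has `2`-adic valuation
`j = p · v₂(b) - 4 > 0`, `p ∤ j`.  Over a field `L ⊇ ℚ` with a valuation subring `A` above `2`:
integrality of the coefficients, `v a₄ = v 2 ^ j`, `b₂` is a unit, and the standing hypotheses
`TwHyp` of the component homomorphism for the node `T = (0, 0)`.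
-/

set_option autoImplicit false

namespace Fermat.Agent.S13

open WeierstrassCurve WeierstrassCurve.Affine Fermat.Agent.S05

variable (P : FreyPackage)

/-! ### Integer facts -/

lemma f2_two_dvd_b : (2 : ℤ) ∣ P.b := (ZMod.intCast_zmod_eq_zero_iff_dvd P.b 2).1 P.hb2

/-- `4 ∣ 1 + a ^ p`. -/
lemma f2_four_dvd_one_add : (4 : ℤ) ∣ 1 + P.a ^ P.p := by
  have key : ((1 + P.a ^ P.p : ℤ) : ZMod 4) = 0 := by
    push_cast
    rw [P.ha4]
    have h3 : (3 : ZMod 4) = -1 := by decide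
    rw [h3, P.hp_odd.neg_one_pow]
    ring
  exact_mod_cast (ZMod.intCast_zmod_eq_zero_iff_dvd _ 4).mp key

lemma f2_a_odd : ¬ (2 : ℤ) ∣ P.a := by
  intro h
  have h4 := f2_four_dvd_one_add P
  have h2 : (2 : ℤ) ∣ P.a ^ P.p := dvd_pow h P.hp0
  have h2' : (2 : ℤ) ∣ 1 + P.a ^ P.p := dvd_trans (by norm_num) h4
  have : (2 : ℤ) ∣ 1 := (dvd_add_left h2).mp h2'
  omega

/-- `2 ^ p ∣ b ^ p`. -/
lemma f2_pow_dvd_b_pow : (2 : ℤ) ^ P.p ∣ P.b ^ P.p := pow_dvd_pow_of_dvd (f2_two_dvd_b P) _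

/-- `4 ∣ b ^ p - 1 - a ^ p`. -/
lemma f2_four_dvd : (4 : ℤ) ∣ P.b ^ P.p - 1 - P.a ^ P.p := by
  have h1 : (4 : ℤ) ∣ P.b ^ P.p := by
    refine dvd_trans ?_ (f2_pow_dvd_b_pow P)
    have : (4 : ℤ) = 2 ^ 2 := by norm_num
    rw [this]
    exact pow_dvd_pow 2 (by have := P.hp5; omega)
  have h2 := f2_four_dvd_one_add P
  have : P.b ^ P.p - 1 - P.a ^ P.p = P.b ^ P.p - (1 + P.a ^ P.p) := by ring
  rw [this]
  exact dvd_sub h1 h2

/-- `a₂` is an integer. -/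
lemma f2_a₂_int : ∃ k : ℤ, P.freyCurve.a₂ = (k : ℚ) := by
  obtain ⟨k, hk⟩ := f2_four_dvd P
  refine ⟨k, ?_⟩
  have : P.freyCurve.a₂ = ((P.b : ℚ) ^ P.p - 1 - (P.a : ℚ) ^ P.p) / 4 := rfl
  rw [this]
  have hk' : ((P.b : ℚ) ^ P.p - 1 - (P.a : ℚ) ^ P.p) = 4 * (k : ℚ) := by exact_mod_cast hk
  rw [hk']
  field_simp

/-- The `2`-adic valuation of `a₄`. -/
lemma f2_padicValRat_a₄ :
    padicValRat 2 P.freyCurve.a₄ = (P.p : ℤ) * padicValInt 2 P.b - 4 := by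
  have : P.freyCurve.a₄ = -((P.a : ℚ) ^ P.p) * ((P.b : ℚ) ^ P.p) / 16 := rfl
  rw [this]
  have : Fact (Nat.Prime 2) := ⟨Nat.prime_two⟩
  have ha : (P.a : ℚ) ≠ 0 := by exact_mod_cast P.ha0
  have hb : (P.b : ℚ) ≠ 0 := by exact_mod_cast P.hb0
  have h16 : (16 : ℚ) = 2 ^ 4 := by norm_num
  rw [padicValRat.div (mul_ne_zero (neg_ne_zero.mpr (pow_ne_zero _ ha)) (pow_ne_zero _ hb))
      (by norm_num),
    padicValRat.mul (neg_ne_zero.mpr (pow_ne_zero _ ha)) (pow_ne_zero _ hb), padicValRat.neg,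
    padicValRat.pow, padicValRat.pow, h16, padicValRat.pow]
  have h22 : padicValRat 2 (2 : ℚ) = 1 := by
    have := padicValRat.self (p := 2) (by norm_num)
    exact_mod_cast this
  have ha0 : padicValRat 2 (P.a : ℚ) = 0 := by
    rw [padicValRat.of_int]
    have := f2_a_odd P
    norm_cast
    exact padicValInt.eq_zero_of_not_dvd this
  have hb0 : padicValRat 2 (P.b : ℚ) = padicValInt 2 P.b := padicValRat.of_int
  rw [ha0, hb0, h22]
  push_cast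
  ring

/-- `1 ≤ v₂(b)`. -/
lemma f2_one_le_val_b : 1 ≤ padicValInt 2 P.b := by
  have : Fact (Nat.Prime 2) := ⟨Nat.prime_two⟩
  have h := (padicValInt_dvd_iff (p := 2) 1 P.b).mp (by simpa using f2_two_dvd_b P)
  rcases h with h | h
  · exact absurd h P.hb0
  · exact h

/-- The exponent `j = p · v₂(b) - 4`. -/
noncomputable def f2J : ℕ := P.p * padicValInt 2 P.b - 4

lemma f2J_pos : 0 < f2J P := by
  have h1 := f2_one_le_val_b P
  have h5 := P.hp5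
  have : 5 ≤ P.p * padicValInt 2 P.b := by nlinarith
  unfold f2J
  omega

lemma f2J_cast : ((f2J P : ℕ) : ℤ) = (P.p : ℤ) * padicValInt 2 P.b - 4 := by
  have h1 := f2_one_le_val_b P
  have h5 := P.hp5
  have : 5 ≤ P.p * padicValInt 2 P.b := by nlinarith
  unfold f2J
  rw [Nat.cast_sub (by omega)]
  push_cast
  ring

lemma f2J_not_dvd : ¬ P.p ∣ f2J P := by
  intro h
  have h1 := f2_one_le_val_b P
  have h5 := P.hp5
  have h5' : 5 ≤ P.p * padicValInt 2 P.b := by nlinarith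
  have h4 : P.p ∣ 4 := by
    have h2 : P.p ∣ P.p * padicValInt 2 P.b := dvd_mul_right _ _
    have h3 : P.p * padicValInt 2 P.b = f2J P + 4 := by unfold f2J; omega
    rw [h3] at h2
    exact (Nat.dvd_add_right h).mp h2
  have := Nat.le_of_dvd (by norm_num) h4
  omega

lemma f2_a₄_ne_zero : P.freyCurve.a₄ ≠ 0 := by
  have : P.freyCurve.a₄ = -((P.a : ℚ) ^ P.p) * ((P.b : ℚ) ^ P.p) / 16 := rfl
  rw [this]
  have ha : (P.a : ℚ) ≠ 0 := by exact_mod_cast P.ha0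
  have hb : (P.b : ℚ) ≠ 0 := by exact_mod_cast P.hb0
  exact div_ne_zero (mul_ne_zero (neg_ne_zero.mpr (pow_ne_zero _ ha)) (pow_ne_zero _ hb))
    (by norm_num)

/-! ### Over a field `L ⊇ ℚ` with a valuation subring above `2` -/

section overL

variable {L : Type*} [Field L] [Algebra ℚ L] [CharZero L] (A : ValuationSubring L)
  (hA : A.LiesOverPrime 2)

include hA

omit [CharZero L] hA in
theorem frey2_a₂_mem : (P.freyCurve⁄L).a₂ ∈ A := by
  obtain ⟨k, hk⟩ := f2_a₂_int P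
  rw [freyL_a₂, hk, eq_ratCast]
  push_cast
  exact intCast_mem A k

theorem frey2_val_a₄ :
    A.valuation (P.freyCurve⁄L).a₄ = A.valuation (2 : L) ^ (f2J P) := by
  rw [freyL_a₄, eq_ratCast, ratVal_eq_zpow A hA Nat.prime_two (f2_a₄_ne_zero P),
    f2_padicValRat_a₄, ← f2J_cast, zpow_natCast]
  norm_num

omit hA in
theorem frey2_a₄_ne_zero : (P.freyCurve⁄L).a₄ ≠ 0 := by
  rw [freyL_a₄, eq_ratCast]
  exact_mod_cast f2_a₄_ne_zero P

omit [Algebra ℚ L] [CharZero L] in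
theorem frey2_val_two_lt_one : A.valuation (2 : L) < 1 := by
  have := intVal_prime_lt_one A hA
  simpa using this

theorem frey2_val_a₄_lt_one : A.valuation (P.freyCurve⁄L).a₄ < 1 := by
  rw [frey2_val_a₄ P A hA]
  exact pow_lt_one₀ zero_le (frey2_val_two_lt_one A hA) (f2J_pos P).ne'

theorem frey2_a₄_mem : (P.freyCurve⁄L).a₄ ∈ A :=
  (A.valuation_le_one_iff _).mp (frey2_val_a₄_lt_one P A hA).le

theorem frey2_a_mem :
    (P.freyCurve⁄L).a₁ ∈ A ∧ (P.freyCurve⁄L).a₂ ∈ A ∧ (P.freyCurve⁄L).a₃ ∈ A ∧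
      (P.freyCurve⁄L).a₄ ∈ A ∧ (P.freyCurve⁄L).a₆ ∈ A := by
  refine ⟨?_, frey2_a₂_mem P A, ?_, frey2_a₄_mem P A hA, ?_⟩
  · rw [freyL_a₁]; exact one_mem A
  · rw [freyL_a₃]; exact zero_mem A
  · rw [freyL_a₆]; exact zero_mem A

theorem frey2_b_mem :
    (P.freyCurve⁄L).b₂ ∈ A ∧ (P.freyCurve⁄L).b₄ ∈ A ∧ (P.freyCurve⁄L).b₆ ∈ A ∧
      (P.freyCurve⁄L).b₈ ∈ A := by
  obtain ⟨h₁, h₂, h₃, h₄, h₆⟩ := frey2_a_mem P A hA
  exact b_mem_of_a_mem A _ h₁ h₂ h₃ h₄ h₆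

omit [CharZero L] hA in
theorem frey2_b₂ : (P.freyCurve⁄L).b₂ = 1 + 4 * (P.freyCurve⁄L).a₂ := by
  rw [WeierstrassCurve.b₂, freyL_a₁]; ring

omit [CharZero L] hA in
theorem frey2_b₄ : (P.freyCurve⁄L).b₄ = 2 * (P.freyCurve⁄L).a₄ := by
  rw [WeierstrassCurve.b₄, freyL_a₁, freyL_a₃]; ring

omit [CharZero L] hA in
theorem frey2_b₈ : (P.freyCurve⁄L).b₈ = -(P.freyCurve⁄L).a₄ ^ 2 := by
  rw [WeierstrassCurve.b₈, freyL_a₁, freyL_a₃, freyL_a₆]; ring

omit [CharZero L] in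
theorem frey2_b₂_unit : A.valuation (P.freyCurve⁄L).b₂ = 1 := by
  rw [frey2_b₂]
  have h4 : A.valuation (4 * (P.freyCurve⁄L).a₂) < 1 := by
    have e : (4 : L) * (P.freyCurve⁄L).a₂ = 2 * (2 * (P.freyCurve⁄L).a₂) := by ring
    rw [e, map_mul]
    have h2a : A.valuation (2 * (P.freyCurve⁄L).a₂) ≤ 1 :=
      (A.valuation_le_one_iff _).mpr (A.mul_mem _ _ (by exact_mod_cast natCast_mem A 2)
        (frey2_a₂_mem P A))
    calc A.valuation (2 : L) * A.valuation (2 * (P.freyCurve⁄L).a₂)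
        ≤ A.valuation (2 : L) * 1 := mul_le_mul_right h2a _
      _ = A.valuation (2 : L) := mul_one _
      _ < 1 := frey2_val_two_lt_one A hA
  rw [Valuation.map_add_eq_of_lt_left _ (by rw [map_one]; exact h4), map_one]

/-- The standing hypotheses of the component homomorphism for the Frey curve at `2`, with node
`T = (0, 0)` and `τ` a root of `τ² + τ = a₂`. -/
theorem frey2_twHyp {τ : L} (hτ : τ ^ 2 + τ = (P.freyCurve⁄L).a₂) :
    TwHyp A.valuation (P.freyCurve⁄L) 0 0 τ := by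
  have hA2 : twA (P.freyCurve⁄L) 0 = (P.freyCurve⁄L).a₂ := by simp [twA]
  have hB : twB (P.freyCurve⁄L) 0 0 = (P.freyCurve⁄L).a₄ := by simp [twB]
  have hτ0 : τ ^ 2 + (P.freyCurve⁄L).a₁ * τ - twA (P.freyCurve⁄L) 0 = 0 := by
    rw [hA2, freyL_a₁, one_mul, hτ, sub_self]
  have hA2le : A.valuation (twA (P.freyCurve⁄L) 0) ≤ 1 := by
    rw [hA2]; exact (A.valuation_le_one_iff _).mpr (frey2_a₂_mem P A)
  have ha1le : A.valuation (P.freyCurve⁄L).a₁ ≤ 1 := by rw [freyL_a₁, map_one]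
  have htau : A.valuation (τ ^ 2 + (P.freyCurve⁄L).a₁ * τ - twA (P.freyCurve⁄L) 0) < 1 := by
    rw [hτ0, map_zero]; exact zero_lt_one
  refine ⟨?_, ?_, ha1le, hA2le, ?_, ?_, htau, ?_⟩
  · rw [Affine.equation_iff, freyL_a₆]; ring
  · rw [freyL_a₃]; ring
  · rw [hB]; exact frey2_a₄_ne_zero P
  · rw [hB]; exact frey2_val_a₄_lt_one P A hA
  · have hτle := twl_val_tau A.valuation ha1le hA2le htau
    have h2τ : A.valuation (2 * τ) < 1 := by
      rw [map_mul]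
      calc A.valuation (2 : L) * A.valuation τ ≤ A.valuation (2 : L) * 1 :=
            mul_le_mul_right hτle _
        _ = A.valuation (2 : L) := mul_one _
        _ < 1 := frey2_val_two_lt_one A hA
    rw [freyL_a₁, add_comm, Valuation.map_add_eq_of_lt_left _ (by rw [map_one]; exact h2τ),
      map_one]

end overL

end Fermat.Agent.S13
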