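import Fermat.Agent.S13.Local.FreyTwo
import Fermat.Agent.S13.Comp.Kernel
import Fermat.Agent.S05.GaloisAction
import Fermat.Agent.S05.Congruent
import Fermat.Agent.S05.NoTorsion

/-!
# S13 library (L2): the Frey curve at the prime `2`, inertia and rational torsion

`L` an algebraically closed field of characteristic zero, algebraic over `ℚ`, `A` a valuation
subring above `2`, `σ` in the inertia group of `A`, `E = P.freyCurve⁄L`, `p = P.p`.

* `l2_sub_mem_E0` (L2a): `σ • T - T ∈ E₀` for every point `T`.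
* `l2_fixed_of_E0` (L2b): `σ` fixes every `p`-torsion point of `E₀`.
* `l2_no_rational_torsion` (L2c): there is no rational point of order `p`.

The statement "the kernel of reduction has no `p`-torsion" (`[NT2]`) enters as a hypothesis `hNT`.
-/

set_option autoImplicit false

namespace Fermat.Agent.S13

open WeierstrassCurve WeierstrassCurve.Affine WeierstrassCurve.Affine.Point
open Fermat.Agent.S05

variable (P : FreyPackage) {L : Type*} [Field L] [DecidableEq L] [Algebra ℚ L] [CharZero L]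

omit [DecidableEq L] in
/-- A root of `τ² + τ = a₂` in an algebraically closed field. -/
lemma l2_exists_tau [IsAlgClosed L] : ∃ τ : L, τ ^ 2 + τ = (P.freyCurve⁄L).a₂ := by
  obtain ⟨s, hs⟩ := IsAlgClosed.exists_pow_nat_eq (1 + 4 * (P.freyCurve⁄L).a₂) (n := 2)
    (by norm_num)
  have h2 : (2 : L) ≠ 0 := two_ne_zero
  refine ⟨(s - 1) / 2, ?_⟩
  field_simp
  linear_combination hs

variable (A : ValuationSubring L) (hA : A.LiesOverPrime 2)

include hA

/-- **(L2a)** For `σ` in the inertia group at `2`, `σ • T - T ∈ E₀` for every point `T`. -/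
theorem l2_sub_mem_E0 [IsAlgClosed L] [Algebra.IsAlgebraic ℚ L] {σ : L ≃ₐ[ℚ] L}
    (hσ : σ ∈ A.inertiaSubgroupIn ℚ) (T : (P.freyCurve⁄L).Point) :
    σ • T - T = 0 ∨ ∃ (X Y : L) (H : (P.freyCurve⁄L).Nonsingular X Y),
      σ • T - T = Point.some X Y H ∧ 1 ≤ A.valuation X := by
  obtain ⟨τ, hτ⟩ := l2_exists_tau P (L := L)
  have H := frey2_twHyp P A hA hτ
  rcases T with _ | ⟨x, y, h⟩
  · left
    show σ • (0 : (P.freyCurve⁄L).Point) - 0 = 0
    rw [ga_smul_zero, sub_zero]
  · rw [Fermat.Agent.S05.smul_some σ h]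
    have hτA : τ ∈ A :=
      (A.valuation_le_one_iff _).mp (twl_val_tau A.valuation H.a1_le H.A_le H.tau)
    have h' : (P.freyCurve⁄L).Nonsingular (σ x) (σ y) :=
      (WeierstrassCurve.Affine.baseChange_nonsingular (W := P.freyCurve) (f := σ.toAlgHom)
        σ.injective x y).mpr h
    have key := tw_sigma_sub_mem_E0 H (σ : L ≃+* L)
      (fun z => inertia_valuation_apply A hσ z) (map_zero _) (map_zero _)
      (inertia_sub_lt_one A hσ hτA) h h'
    simp only [sub_zero] at key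
    exact key

/-- **(L2b)** For `σ` in the inertia group at `2`, `σ` fixes the `p`-torsion points of `E₀`. -/
theorem l2_fixed_of_E0 {σ : L ≃ₐ[ℚ] L} (hσ : σ ∈ A.inertiaSubgroupIn ℚ)
    (hNT : ∀ T : (P.freyCurve⁄L).Point, InKerRed A T → P.p • T = 0 → T = 0)
    {x y : L} (h : (P.freyCurve⁄L).Nonsingular x y)
    (hT : P.p • (Point.some x y h : (P.freyCurve⁄L).Point) = 0) (hx : 1 ≤ A.valuation x) :
    σ • (Point.some x y h : (P.freyCurve⁄L).Point) = Point.some x y h := by
  obtain ⟨ha1, ha2, ha3, ha4, ha6⟩ := frey2_a_mem P A hA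
  -- `x ∈ A`
  have hxA : x ∈ A := by
    by_contra hx'
    have := hNT _ ((inKerRed_some h).mpr hx') hT
    exact Point.some_ne_zero h this
  have hx1 : A.valuation x = 1 := le_antisymm ((A.valuation_le_one_iff _).mpr hxA) hx
  have hyA : y ∈ A := cg_y_mem A (P.freyCurve⁄L) ha1 ha2 ha3 ha4 ha6 hxA h.1
  -- `2y + a₁x + a₃` is a unit
  have hns : A.valuation (2 * y + (P.freyCurve⁄L).a₁ * x + (P.freyCurve⁄L).a₃) = 1 := by
    rw [freyL_a₁, freyL_a₃, one_mul, add_zero, add_comm]
    have h2y : A.valuation (2 * y) < 1 := by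
      rw [map_mul]
      calc A.valuation (2 : L) * A.valuation y ≤ A.valuation (2 : L) * 1 :=
            mul_le_mul_right ((A.valuation_le_one_iff _).mpr hyA) _
        _ = A.valuation (2 : L) := mul_one _
        _ < 1 := frey2_val_two_lt_one A hA
    rw [Valuation.map_add_eq_of_lt_left _ (by rw [hx1]; exact h2y), hx1]
  rw [Fermat.Agent.S05.smul_some σ h]
  have h' : (P.freyCurve⁄L).Nonsingular (σ x) (σ y) :=
    (WeierstrassCurve.Affine.baseChange_nonsingular (W := P.freyCurve)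
      (f := σ.toAlgHom) σ.injective x y).mpr h
  have hD := cg_sub_mem_E1 A (P.freyCurve⁄L) ha1 ha2 h h' hxA hyA
    (inertia_sub_lt_one A hσ hxA) (inertia_sub_lt_one A hσ hyA) (Or.inl hns)
  have hpD : P.p • (Point.some (σ x) (σ y) h' - Point.some x y h : (P.freyCurve⁄L).Point) = 0 := by
    have := ga_nsmul_smul_sub σ hT
    rwa [Fermat.Agent.S05.smul_some σ h] at this
  have hD0 : (Point.some (σ x) (σ y) h' - Point.some x y h : (P.freyCurve⁄L).Point) = 0 := by
    rcases hD with h0 | ⟨X, Y, HH, hXY, hX⟩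
    · exact h0
    · apply hNT _ _ hpD
      rw [hXY]
      exact (inKerRed_some HH).mpr hX
  exact sub_eq_zero.mp hD0

omit [DecidableEq L] [Algebra ℚ L] in
/-- A rational number which is a unit of `A` (above `2`) is congruent to `1`. -/
lemma l2_rat_sub_one (r : ℚ) (hr : A.valuation (r : L) = 1) : A.valuation ((r : L) - 1) < 1 := by
  have hd0 : ((r.den : ℤ) : L) ≠ 0 := by
    have := r.den_ne_zero
    exact_mod_cast this
  have hcast : (r : L) = ((r.num : ℤ) : L) / ((r.den : ℤ) : L) := by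
    rw [Rat.cast_def]; simp
  have hvd0 : A.valuation ((r.den : ℤ) : L) ≠ 0 := (Valuation.ne_zero_iff _).mpr hd0
  have hv : A.valuation ((r.num : ℤ) : L) = A.valuation ((r.den : ℤ) : L) := by
    rw [hcast, map_div₀, div_eq_one_iff_eq hvd0] at hr
    exact hr
  have hdodd : ¬ (2 : ℤ) ∣ (r.den : ℤ) := by
    intro h2
    have h1 : A.valuation ((r.den : ℤ) : L) < 1 :=
      (intVal_lt_one_iff A hA Nat.prime_two _).mpr (by exact_mod_cast h2)
    rw [← hv] at h1
    have h3 : (2 : ℤ) ∣ r.num := by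
      have := (intVal_lt_one_iff A hA Nat.prime_two _).mp h1
      exact_mod_cast this
    have hred := r.reduced
    have h4 : 2 ∣ r.num.natAbs := by
      have := Int.natAbs_dvd_natAbs.mpr h3
      simpa using this
    have h5 : 2 ∣ r.den := by exact_mod_cast h2
    exact Nat.not_coprime_of_dvd_of_dvd (by norm_num) h4 h5 hred
  have hvd : A.valuation ((r.den : ℤ) : L) = 1 :=
    (intVal_eq_one_iff A hA Nat.prime_two _).mpr (by exact_mod_cast hdodd)
  have hnodd : ¬ (2 : ℤ) ∣ r.num := by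
    have := (intVal_eq_one_iff A hA Nat.prime_two _).mp (hv.trans hvd)
    exact_mod_cast this
  have heven : (2 : ℤ) ∣ r.num - (r.den : ℤ) := by omega
  have e : (r : L) - 1 = ((r.num - (r.den : ℤ) : ℤ) : L) / ((r.den : ℤ) : L) := by
    rw [hcast]; push_cast; field_simp
  rw [e, map_div₀, hvd, div_one]
  exact (intVal_lt_one_iff A hA Nat.prime_two _).mpr (by exact_mod_cast heven)

/-- **(L2c)** The Frey curve has no rational point of order `p` (local argument at `2`). -/
theorem l2_no_rational_torsion [IsAlgClosed L]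
    (hNT : ∀ T : (P.freyCurve⁄L).Point, InKerRed A T → P.p • T = 0 → T = 0)
    (x y : ℚ) (h : (P.freyCurve⁄L).Nonsingular (algebraMap ℚ L x) (algebraMap ℚ L y))
    (hT : P.p • (Point.some _ _ h : (P.freyCurve⁄L).Point) = 0) : False := by
  obtain ⟨ha1, ha2, ha3, ha4, ha6⟩ := frey2_a_mem P A hA
  obtain ⟨τ, hτ⟩ := l2_exists_tau P (L := L)
  have H := frey2_twHyp P A hA hτ
  have hB : twB (P.freyCurve⁄L) 0 0 = (P.freyCurve⁄L).a₄ := by simp [twB]
  have h2lt := frey2_val_two_lt_one A hA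
  have h2pos : 0 < A.valuation (2 : L) := zero_lt_iff.mpr ((Valuation.ne_zero_iff _).mpr two_ne_zero)
  set X : L := algebraMap ℚ L x with hX
  set Y : L := algebraMap ℚ L y with hY
  set T : (P.freyCurve⁄L).Point := Point.some X Y h with hTdef
  have hTne : T ≠ 0 := Point.some_ne_zero h
  -- Step 1: `T ∈ E₀`
  have hE0 : 1 ≤ A.valuation X := by
    have hodd : Odd P.p := P.hp_odd
    by_cases hx0 : x = 0
    · exfalso
      have hX0 : X = 0 := by rw [hX, hx0, _root_.map_zero]
      refine tw_not_T_of_odd H hodd h ?_ hT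
      rw [sub_zero, hX0, _root_.map_zero]
      exact zero_le
    · have hj : A.valuation (X - 0) = A.valuation (2 : L) ^ (padicValRat 2 x) := by
        rw [sub_zero, hX, eq_ratCast, ratVal_eq_zpow A hA Nat.prime_two hx0]
        norm_num
      have hN : A.valuation (twB (P.freyCurve⁄L) 0 0) = A.valuation (2 : L) ^ (f2J P) := by
        rw [hB]; exact frey2_val_a₄ P A hA
      have hcop : Nat.Coprime P.p (2 * f2J P) := by
        rw [Nat.Prime.coprime_iff_not_dvd P.pp]
        intro hdvd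
        rcases (Nat.Prime.dvd_mul P.pp).mp hdvd with h2 | hJ
        · have := Nat.le_of_dvd (by norm_num) h2
          have := P.hp5
          omega
        · exact f2J_not_dvd P hJ
      have := tw_E0_of_rational H h2pos h2lt hN hcop h hT hj
      rwa [sub_zero] at this
  -- Step 2: `X ∈ A`, a unit; `Y ∈ A`
  have hxA : X ∈ A := by
    by_contra hx'
    exact hTne (hNT _ ((inKerRed_some h).mpr hx') hT)
  have hx1 : A.valuation X = 1 := le_antisymm ((A.valuation_le_one_iff _).mpr hxA) hE0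
  have hyA : Y ∈ A := cg_y_mem A (P.freyCurve⁄L) ha1 ha2 ha3 ha4 ha6 hxA h.1
  have h2A : (2 : L) ∈ A := (A.valuation_le_one_iff _).mp h2lt.le
  have h4lt : A.valuation (4 : L) < 1 := by
    have : (4 : L) = 2 * 2 := by norm_num
    rw [this]
    exact cg_val_mul_lt_one_left A h2lt h2A
  have ha4lt : A.valuation (P.freyCurve⁄L).a₄ < 1 := frey2_val_a₄_lt_one P A hA
  -- `2Y + X` is a unit
  have hns : A.valuation (2 * Y + (P.freyCurve⁄L).a₁ * X + (P.freyCurve⁄L).a₃) = 1 := by
    rw [freyL_a₁, freyL_a₃, one_mul, add_zero, add_comm]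
    rw [Valuation.map_add_eq_of_lt_left _
      (by rw [hx1]; exact cg_val_mul_lt_one_left A h2lt hyA), hx1]
  -- Step 3: `X ≡ 1`, so `X² ≡ X`
  have hX1 : A.valuation (X - 1) < 1 := by
    have := l2_rat_sub_one A hA x (by rw [← eq_ratCast (algebraMap ℚ L)]; exact hx1)
    rwa [← eq_ratCast (algebraMap ℚ L)] at this
  have hXX : A.valuation (X ^ 2 - X) < 1 := by
    have : X ^ 2 - X = (X - 1) * X := by ring
    rw [this]
    exact cg_val_mul_lt_one_left A hX1 hxA
  -- Step 4: duplication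
  have hψ : psi2Sq (P.freyCurve⁄L) X =
      X ^ 2 + 4 * (X ^ 3 + (P.freyCurve⁄L).a₂ * X ^ 2 + (P.freyCurve⁄L).a₄ * X) := by
    rw [psi2Sq, frey2_b₂, frey2_b₄, freyL_b₆]; ring
  have hdup : dupNum (P.freyCurve⁄L) X = (X ^ 2 - (P.freyCurve⁄L).a₄) ^ 2 := by
    rw [dupNum, frey2_b₄, freyL_b₆, frey2_b₈]; ring
  have hcub : X ^ 3 + (P.freyCurve⁄L).a₂ * X ^ 2 + (P.freyCurve⁄L).a₄ * X ∈ A :=
    A.add_mem _ _ (A.add_mem _ _ (A.pow_mem hxA 3) (A.mul_mem _ _ ha2 (A.pow_mem hxA 2)))
      (A.mul_mem _ _ ha4 hxA)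
  have hψ1 : A.valuation (psi2Sq (P.freyCurve⁄L) X) = 1 := by
    rw [hψ, Valuation.map_add_eq_of_lt_left _
      (by rw [map_pow, hx1, one_pow]; exact cg_val_mul_lt_one_left A h4lt hcub),
      map_pow, hx1, one_pow]
  have hψ0 : psi2Sq (P.freyCurve⁄L) X ≠ 0 := by
    intro h0; rw [h0, _root_.map_zero] at hψ1; exact zero_ne_one hψ1
  rcases two_nsmul_some h with ⟨h0, -⟩ | ⟨-, X₂, Y₂, h₂, h2T, hX₂⟩
  · exact hψ0 h0
  -- `X₂ ≡ X²`
  have hdiff : (X₂ - X ^ 2) * psi2Sq (P.freyCurve⁄L) X =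
      (P.freyCurve⁄L).a₄ * ((P.freyCurve⁄L).a₄ - 2 * X ^ 2) -
        4 * (X ^ 2 * (X ^ 3 + (P.freyCurve⁄L).a₂ * X ^ 2 + (P.freyCurve⁄L).a₄ * X)) := by
    rw [sub_mul, hX₂, hdup, hψ]; ring
  have hX₂X2 : A.valuation (X₂ - X ^ 2) < 1 := by
    have h1 : A.valuation ((X₂ - X ^ 2) * psi2Sq (P.freyCurve⁄L) X) < 1 := by
      rw [hdiff]
      refine cg_val_sub_lt_one A ?_ ?_
      · exact cg_val_mul_lt_one_left A ha4lt
          (sub_mem ha4 (A.mul_mem _ _ h2A (A.pow_mem hxA 2)))
      · exact cg_val_mul_lt_one_left A h4lt (A.mul_mem _ _ (A.pow_mem hxA 2) hcub)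
    rwa [map_mul, hψ1, mul_one] at h1
  have hxx : A.valuation (X₂ - X) < 1 := by
    have : X₂ - X = (X₂ - X ^ 2) + (X ^ 2 - X) := by ring
    rw [this]
    exact cg_val_add_lt_one A hX₂X2 hXX
  have hx₂A : X₂ ∈ A := by
    have : X₂ = X + (X₂ - X) := by ring
    rw [this]
    exact A.add_mem _ _ hxA ((A.valuation_le_one_iff _).mp hxx.le)
  have hy₂A : Y₂ ∈ A := cg_y_mem A (P.freyCurve⁄L) ha1 ha2 ha3 ha4 ha6 hx₂A h₂.1
  -- the two candidates for `Y₂`
  have hprod : (Y₂ - Y) * (Y₂ + Y + X) =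
      (X₂ - X) * (X₂ ^ 2 + X₂ * X + X ^ 2 + (P.freyCurve⁄L).a₂ * (X₂ + X) +
        (P.freyCurve⁄L).a₄ - Y₂) := by
    have e1 := (Affine.equation_iff ..).mp h.1
    have e2 := (Affine.equation_iff ..).mp h₂.1
    rw [freyL_a₁, freyL_a₃, freyL_a₆] at e1 e2
    linear_combination e2 - e1
  have hprodlt : A.valuation ((Y₂ - Y) * (Y₂ + Y + X)) < 1 := by
    rw [hprod]
    refine cg_val_mul_lt_one_left A hxx ?_
    exact sub_mem (A.add_mem _ _ (A.add_mem _ _ (A.add_mem _ _ (A.add_mem _ _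
      (A.pow_mem hx₂A 2) (A.mul_mem _ _ hx₂A hxA)) (A.pow_mem hxA 2))
      (A.mul_mem _ _ ha2 (A.add_mem _ _ hx₂A hxA))) ha4) hy₂A
  have h2Tsome : Point.some X₂ Y₂ h₂ = T + T := by rw [← two_nsmul, h2T]
  have hcop3 : Nat.Coprime 3 P.p := by
    rw [Nat.coprime_comm, Nat.Prime.coprime_iff_not_dvd P.pp]
    intro hdvd
    have := Nat.le_of_dvd (by norm_num) hdvd
    have := P.hp5
    omega
  have hfinal : (3 : ℕ) • T = 0 → False := by
    intro h3
    have hd3 : addOrderOf T ∣ 3 := addOrderOf_dvd_of_nsmul_eq_zero h3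
    have hdp : addOrderOf T ∣ P.p := addOrderOf_dvd_of_nsmul_eq_zero hT
    have h1 : addOrderOf T = 1 := Nat.eq_one_of_dvd_coprimes hcop3 hd3 hdp
    exact hTne (AddMonoid.addOrderOf_eq_one_iff.mp h1)
  rw [map_mul] at hprodlt
  by_cases hcase : A.valuation (Y₂ - Y) < 1
  · -- `2T ≡ T`
    have hD := cg_sub_mem_E1 A (P.freyCurve⁄L) ha1 ha2 h h₂ hxA hyA hxx hcase (Or.inl hns)
    have e : (Point.some X₂ Y₂ h₂ - Point.some X Y h : (P.freyCurve⁄L).Point) = T := by
      rw [h2Tsome]; exact add_sub_cancel_right T T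
    rw [e] at hD
    rcases hD with h0 | ⟨X', Y', HH, hXY, hX'⟩
    · exact hTne h0
    · have : X = X' := by
        have := hXY
        rw [hTdef] at this
        injection this
      exact hX' (this ▸ hxA)
  · -- `2T ≡ -T`
    rw [not_lt] at hcase
    have hcase' : A.valuation (Y₂ + Y + X) < 1 := by
      by_contra hge
      rw [not_lt] at hge
      have : 1 ≤ A.valuation (Y₂ - Y) * A.valuation (Y₂ + Y + X) := by
        simpa using mul_le_mul' hcase hge
      exact absurd hprodlt (not_lt.mpr this)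
    have hneg : (P.freyCurve⁄L).toAffine.negY X Y = -Y - X := by
      rw [negY, freyL_a₁, freyL_a₃]; ring
    have hn : (P.freyCurve⁄L).Nonsingular X ((P.freyCurve⁄L).toAffine.negY X Y) :=
      (nonsingular_neg ..).mpr h
    have hnyA : (P.freyCurve⁄L).toAffine.negY X Y ∈ A := by
      rw [hneg]; exact sub_mem (A.neg_mem _ hyA) hxA
    have hyy : A.valuation (Y₂ - (P.freyCurve⁄L).toAffine.negY X Y) < 1 := by
      have : Y₂ - (P.freyCurve⁄L).toAffine.negY X Y = Y₂ + Y + X := by rw [hneg]; ring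
      rw [this]; exact hcase'
    have hns' : A.valuation (2 * (P.freyCurve⁄L).toAffine.negY X Y + (P.freyCurve⁄L).a₁ * X +
        (P.freyCurve⁄L).a₃) = 1 := by
      have : 2 * (P.freyCurve⁄L).toAffine.negY X Y + (P.freyCurve⁄L).a₁ * X +
          (P.freyCurve⁄L).a₃ =
          -(2 * Y + (P.freyCurve⁄L).a₁ * X + (P.freyCurve⁄L).a₃) := by
        rw [hneg, freyL_a₁, freyL_a₃]; ring
      rw [this, Valuation.map_neg, hns]
    have hD := cg_sub_mem_E1 A (P.freyCurve⁄L) ha1 ha2 hn h₂ hxA hnyA hxx hyy (Or.inl hns')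
    have e : (Point.some X₂ Y₂ h₂ - Point.some X _ hn : (P.freyCurve⁄L).Point) = (3 : ℕ) • T := by
      have : (Point.some X _ hn : (P.freyCurve⁄L).Point) = -T := by
        rw [hTdef, Point.neg_some]
      rw [this, h2Tsome, sub_neg_eq_add]
      rw [show (3 : ℕ) = 2 + 1 from rfl, add_nsmul, two_nsmul, one_nsmul]
    rw [e] at hD
    rcases hD with h0 | ⟨X', Y', HH, hXY, hX'⟩
    · exact hfinal h0
    · apply hfinal
      apply hNT
      · rw [hXY]; exact (inKerRed_some HH).mpr hX'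
      · rw [smul_comm, hT, smul_zero]

end Fermat.Agent.S13
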